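import Fermat.Agent.LTG.Hyp.Block
import Fermat.Agent.LT.HypAssemble

/-!
# A density for a part of a combination seen through diagonal classes

The part is the limit of its truncations, each affine in the logarithm of the
cut-off; so the growing coefficient vanishes for every polynomial, hence group by group, and with it
the fixed one wherever finitely many constant terms do.
-/

set_option autoImplicit false
open NumberField MeasureTheory Filter Set Polynomial
open scoped Classical ENNReal Topology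

namespace Fermat.LTG

open Fermat.LT

/-- The odd polynomial of a monomial is a monomial. -/
lemma oddP_X_pow (k : ℕ) : oddP ((X : ℝ[X]) ^ k) = (X : ℂ[X]) ^ (2 * k + 1) := by
  rw [oddP, pow_comp, X_comp, ← pow_mul, Polynomial.map_pow, Polynomial.map_X, pow_succ']

/-- The top value of the kernel of a monomial is one. -/
lemma kern_X_pow_self (q : ℕ) : ∀ m : ℕ, kern q ((X : ℂ[X]) ^ m) m = 1
  | 0 => by simp [kern, delta0]
  | m + 1 => by
    rw [pow_succ', kern_X_mul, stepKer_succ, kern_X_pow_self q m,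
      kern_eq_zero q _ (m + 2) (by rw [natDegree_X_pow]; omega), mul_zero, add_zero]

/-- The scaled constant term of a monomial vanishes beyond its degree. -/
lemma ctil_X_pow_of_lt (q : ℕ) {m n : ℕ} (h : m < n) : ctil q (kern q ((X : ℂ[X]) ^ m)) n = 0 := by
  have hD : ∀ j, m < j → kern q ((X : ℂ[X]) ^ m) j = 0 :=
    fun j hj => kern_eq_zero q _ j (by rwa [natDegree_X_pow])
  rw [ctil, hD n h, gsum_eq_sum q hD n 0 (by omega), Finset.range_zero, Finset.sum_empty,
    mul_zero, add_zero]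

/-- The scaled constant term of a monomial at its degree is one. -/
lemma ctil_X_pow_self (q m : ℕ) : ctil q (kern q ((X : ℂ[X]) ^ m)) m = 1 := by
  have hD : ∀ j, m < j → kern q ((X : ℂ[X]) ^ m) j = 0 :=
    fun j hj => kern_eq_zero q _ j (by rwa [natDegree_X_pow])
  rw [ctil, kern_X_pow_self, gsum_eq_sum q hD m 0 (by omega), Finset.range_zero, Finset.sum_empty,
    mul_zero, add_zero]

/-- Grouping a sum by a bounded index. -/
lemma tsum_group {Ξ : Type*} (nn : Ξ → ℕ) (M : ℕ) (f : ℕ → ℂ) {R : Ξ → ℂ}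
    (hR : ∀ n, Summable fun ξ => if nn ξ = n then R ξ else 0) (hM : ∀ ξ, M < nn ξ → R ξ = 0) :
    ∑' ξ, f (nn ξ) * R ξ = ∑ n ∈ Finset.range (M + 1), f n * ∑' ξ, if nn ξ = n then R ξ else 0 := by
  simp only [← tsum_mul_left]
  rw [← Summable.tsum_finsetSum fun n _ => (hR n).mul_left _]
  refine tsum_congr fun ξ => ?_
  by_cases h : nn ξ ≤ M
  · rw [Finset.sum_eq_single (nn ξ) (fun n _ hn => by rw [if_neg (Ne.symm hn), mul_zero])
      (fun h' => absurd (Finset.mem_range.2 (Nat.lt_succ_of_le h)) h'), if_pos rfl]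
  · rw [hM ξ (not_le.1 h), mul_zero]
    exact (Finset.sum_eq_zero fun n _ => by rw [ite_self, mul_zero]).symm

/-- Finitely many positive radii have a common lower bound at most one. -/
lemma exists_radius_le {ι : Type*} [Finite ι] (ε : ι → ℝ) (hε : ∀ i, 0 < ε i) :
    ∃ η : ℝ, 0 < η ∧ η ≤ 1 ∧ ∀ i, η ≤ ε i := by
  have := Fintype.ofFinite ι
  have hne : (insert 1 (Finset.univ.image ε)).Nonempty := Finset.insert_nonempty _ _
  refine ⟨_, ?_, Finset.min'_le _ _ (Finset.mem_insert_self _ _), fun i =>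
    Finset.min'_le _ _ (Finset.mem_insert_of_mem (Finset.mem_image_of_mem ε (Finset.mem_univ i)))⟩
  rw [Finset.lt_min'_iff _ hne]
  simp only [Finset.mem_insert, Finset.mem_image, Finset.mem_univ, true_and]
  rintro _ (rfl | ⟨i, rfl⟩)
  exacts [one_pos, hε i]

/-- Families affine in the logarithm that are summable at two cut-offs have summable
coefficients. -/
lemma summable_of_log_affine {Ξ : Type*} {T : ℝ → Ξ → ℂ} {A B : Ξ → ℂ} {ε₀ : ℝ} (hε₀ : 0 < ε₀)
    (hs : ∀ δ, 0 < δ → Summable (T δ))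
    (hT : ∀ ξ ε, 0 < ε → ε ≤ ε₀ → ε ≤ 1 → T ε ξ = ((-2 * Real.log ε : ℝ) : ℂ) * A ξ + B ξ) :
    Summable A ∧ Summable B := by
  set η := min ε₀ 1
  have hη0 : 0 < η := lt_min hε₀ one_pos
  have hee : η / Real.exp 1 ≤ η := div_le_self hη0.le (by linarith [Real.add_one_le_exp (1 : ℝ)])
  have h1 := (hs η hη0).congr fun ξ => hT ξ η hη0 (min_le_left _ _) (min_le_right _ _)
  have h2 := (hs (η / Real.exp 1) (by positivity)).congr fun ξ =>
    hT ξ _ (by positivity) (hee.trans (min_le_left _ _)) (hee.trans (min_le_right _ _))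
  have hA : Summable A := by
    refine ((h2.sub h1).mul_left ((2 : ℂ)⁻¹)).congr fun ξ => ?_
    rw [Real.log_div hη0.ne' (Real.exp_ne_zero _), Real.log_exp]
    push_cast
    ring
  exact ⟨hA, (h1.sub (hA.mul_left ((-2 * Real.log η : ℝ) : ℂ))).congr fun ξ => by ring⟩

/-- A convergent function affine in the logarithm of the cut-off is constant. -/
lemma eq_zero_and_eq_of_log_affine {G : ℝ → ℂ} {A B I : ℂ} {η : ℝ} (hη : 0 < η)
    (hlim : ∀ u : ℕ → ℝ, Tendsto u atTop (𝓝 0) → Tendsto (fun k => G (u k)) atTop (𝓝 I))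
    (hval : ∀ ε, 0 < ε → ε ≤ η → G ε = 2⁻¹ * (((-2 * Real.log ε : ℝ) : ℂ) * A + B)) :
    A = 0 ∧ I = 2⁻¹ * B := by
  set e : ℕ → ℝ := fun k => η / ((k : ℝ) + 1)
  have he0 : ∀ k, 0 < e k := fun k => div_pos hη (by positivity)
  have hele : ∀ k, e k ≤ η := fun k => div_le_self hη.le (le_add_of_nonneg_left (Nat.cast_nonneg k))
  have ht0 : Tendsto e atTop (𝓝 0) := Tendsto.div_atTop tendsto_const_nhds
    (tendsto_atTop_add_const_right _ _ tendsto_natCast_atTop_atTop)
  have hd : ∀ k, e k / Real.exp 1 ≤ η := fun k =>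
    (div_le_self (he0 k).le (by linarith [Real.add_one_le_exp (1 : ℝ)])).trans (hele k)
  have h1 := hlim e ht0
  have h2 := hlim (fun k => e k / Real.exp 1) (by simpa using ht0.div_const (Real.exp 1))
  have hconst : Tendsto (fun _ : ℕ => A) atTop (𝓝 0) := by
    have h3 := h2.sub h1
    rw [sub_self] at h3
    refine h3.congr fun k => ?_
    rw [hval _ (div_pos (he0 k) (Real.exp_pos _)) (hd k), hval _ (he0 k) (hele k),
      Real.log_div (he0 k).ne' (Real.exp_ne_zero _), Real.log_exp]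
    push_cast
    ring
  have hA : A = 0 := tendsto_nhds_unique tendsto_const_nhds hconst
  refine ⟨hA, tendsto_nhds_unique h1 (tendsto_const_nhds.congr fun k => ?_)⟩
  rw [hval _ (he0 k) (hele k), hA, mul_zero, zero_add]

/-- The triangular system of the odd monomials only has the trivial solution. -/
lemma group_eq_zero {q M : ℕ} {N : ℕ → ℂ} (hev : ∀ n, n % 2 = 0 → N n = 0)
    (hsys : ∀ k, ∑ n ∈ Finset.range (M + 1), ctil q (kern q (oddP ((X : ℝ[X]) ^ k))) n * N n = 0) :
    ∀ n ≤ M, N n = 0 := by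
  intro n
  induction n using Nat.strong_induction_on with
  | _ n ih =>
    intro hn
    by_cases ho : n % 2 = 0
    · exact hev n ho
    have h := hsys (n / 2)
    rw [Finset.sum_eq_single n (fun m hm hne => ?_)
      (fun h' => absurd (Finset.mem_range.2 (Nat.lt_succ_of_le hn)) h')] at h
    · rwa [oddP_X_pow, show 2 * (n / 2) + 1 = n by omega, ctil_X_pow_self, one_mul] at h
    · rcases lt_or_gt_of_ne hne with h' | h'
      · rw [ih m h' (Nat.lt_succ_iff.1 (Finset.mem_range.1 hm)), mul_zero]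
      · rw [oddP_X_pow, show 2 * (n / 2) + 1 = n by omega, ctil_X_pow_of_lt q h', zero_mul]

variable {F : Type*} [Field F] [NumberField F] {S : Lev F} [IsTotallyComplex F] {τ : F ≃+* F}

/-- Every point lies in some low part. -/
theorem exists_mem_lowSet (p : Pt F S) : ∃ ε : ℝ, 0 < ε ∧ p ∈ lowSet F S ε := by
  obtain ⟨Ω, R₀, c, hc, hΩ⟩ := exists_siegel (F := F) (S := S)
  obtain ⟨g, hg⟩ := hΩ p
  set q := g • p
  set a := ht (eInf : Fin 2 → F) q
  have ha : 0 < a := ht_pos eInf_ne_zero q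
  refine ⟨min a a⁻¹, lt_min ha (inv_pos.2 ha), ?_⟩
  refine (lowSet_smul (min a a⁻¹) (g : PG F) p).1 fun u hu => ?_
  rw [PG.mk_smul]
  by_cases h : u 0 = 0
  · have h1 : u 1 ≠ 0 := fun h1 => hu (by funext i; fin_cases i <;> assumption)
    have eu : u = ((Units.mk0 (u 1) h1 : Fˣ) : F) • (eInf : Fin 2 → F) := by
      funext i; fin_cases i <;> simp [eInf, h]
    rw [eu, ht_smul_vec eInf_ne_zero]
    exact min_le_left _ _
  · have h2 := one_le_ht_mul hu eInf_ne_zero (by simpa [eInf] using h) q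
    refine (min_le_right _ _).trans ?_
    rw [inv_le_iff_one_le_mul₀ ha]
    exact h2

variable (hS : Stable τ S) (Pr : TwPG τ → Prop)

/-- The part of the diagonal of the kernel sum. -/
noncomputable def partFun (P : PKer F S) (p : Pt F S) : ℂ :=
  ∑' γ : TwPG τ, if Pr γ then twVal P hS γ p else 0

omit [IsTotallyComplex F] in
/-- The kernel sum of a part is summable. -/
lemma summable_partFun (P : PKer F S) (p : Pt F S) :
    Summable fun γ : TwPG τ => if Pr γ then twVal P hS γ p else 0 :=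
  summable_of_hasFiniteSupport ((P.finite_support p (Pt.amap hS p)).subset fun γ hγ => by
    by_contra h
    simp only [Set.mem_ofPred_eq, not_not] at h
    exact hγ (by
      change (if Pr γ then twVal P hS γ p else 0) = 0
      rw [show twVal P hS γ p = 0 from h, ite_self]))

/-- A part of the diagonal of the kernel sum is measurable. -/
lemma measurable_partFun (P : PKer F S) : Measurable (partFun hS Pr P) := by
  refine measurable_of_tendsto_metrizable' (u := (atTop : Filter (Finset (TwPG τ))))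
    (f := fun s p => ∑ γ ∈ s, if Pr γ then twVal P hS γ p else 0)
    (fun s => Finset.measurable_fun_sum _ fun γ _ => ?_) ?_
  · split_ifs
    · exact measurable_twVal P hS γ
    · exact measurable_const
  · exact tendsto_pi_nhds.2 fun p => (summable_partFun hS Pr P p).hasSum

/-- The truncated integrals of the diagonal classes form a summable family. -/
lemma summable_trunc {Ξ : Type*} [Countable Ξ] (base : Ξ → TwPG τ)
    (htwo : ∀ γ, (∃ pr, pairPt (fun _ : Ξ => dTor τ) base pr = γ) →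
      {pr | pairPt (fun _ : Ξ => dTor τ) base pr = γ}.ncard = 2)
    {D : Set (Pt F S)} (hD : IsFundamentalDomain (PG F) D ptMeasure) (P : PKer F S) {δ : ℝ}
    (hlin : ∫⁻ p in D, ∑' γ, (if ∃ pr, pairPt (fun _ : Ξ => dTor τ) base pr = γ
      then ‖(lowSet F S δ).indicator (twVal P hS γ) p‖ₑ else 0) ∂ptMeasure < ∞) :
    Summable fun ξ => ∫ p in cosetDomain (dTor τ) D,
      (lowSet F S δ).indicator (twVal P hS (base ξ)) p ∂ptMeasure := by
  set G : TwPG τ → Pt F S → ℂ := fun γ => (lowSet F S δ).indicator (twVal P hS γ)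
  have hm : ∀ γ, Measurable (G γ) :=
    fun γ => (measurable_twVal P hS γ).indicator (measurableSet_lowSet δ)
  have hG : ∀ (g : PG F) γ p, G (g • γ) (g • p) = G γ p := fun g γ p => by
    simp only [G, indicator_apply, lowSet_smul, twVal_smul]
  have e : ∀ ξ, ∫⁻ p in cosetDomain (dTor τ) D, ‖G (base ξ) p‖ₑ ∂ptMeasure
      = ∫⁻ p in D, ∑' q : PG F ⧸ dTor τ, ‖G (pairPt (fun _ : Ξ => dTor τ) base ⟨ξ, q⟩) p‖ₑ
          ∂ptMeasure := by
    intro ξ
    rw [lintegral_cosetDomain hD (dTor τ) _ (hm _).enorm.aemeasurable]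
    refine lintegral_congr fun p => tsum_congr fun q => ?_
    rw [← hG q.out, smul_inv_smul]
    rfl
  have hsum : ∑' ξ, ∫⁻ p in cosetDomain (dTor τ) D, ‖G (base ξ) p‖ₑ ∂ptMeasure < ∞ := by
    simp only [e]
    rw [← lintegral_tsum fun ξ => (AEMeasurable.tsum fun q => (hm _).enorm.aemeasurable).restrict]
    have : ∀ p, ∑' ξ, ∑' q : PG F ⧸ dTor τ, ‖G (pairPt (fun _ : Ξ => dTor τ) base ⟨ξ, q⟩) p‖ₑ
        = 2 * ∑' γ, if ∃ pr, pairPt (fun _ : Ξ => dTor τ) base pr = γ then ‖G γ p‖ₑ else 0 :=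
            fun p => by
      rw [← ENNReal.tsum_sigma' (fun pr : Σ _ : Ξ, PG F ⧸ dTor τ =>
        ‖G (pairPt (fun _ : Ξ => dTor τ) base pr) p‖ₑ)]
      exact tsum_pair_ennreal (fun pr => ⟨pr, rfl⟩) htwo fun γ => ‖G γ p‖ₑ
    simp only [this]
    rw [lintegral_const_mul' _ _ (by norm_num)]
    exact ENNReal.mul_lt_top (by norm_num) hlin
  refine Summable.of_norm ?_
  have h' : ∑' ξ, ‖∫ p in cosetDomain (dTor τ) D, G (base ξ) p ∂ptMeasure‖ₑ ≠ ∞ :=
    ne_top_of_le_ne_top hsum.ne (ENNReal.tsum_le_tsum fun ξ => enorm_integral_le_lintegral_enorm _)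
  simpa [enorm_eq_nnnorm] using ENNReal.tsum_coe_ne_top_iff_summable_coe.1 h'

omit [IsTotallyComplex F] in
/-- The part is linear in the kernel. -/
lemma partFun_linear {P P₁ P₂ : PKer F S} (a b : ℂ)
    (h : ∀ x y, P.val x y = a * P₁.val x y + b * P₂.val x y) (p : Pt F S) :
    partFun hS Pr P p = a * partFun hS Pr P₁ p + b * partFun hS Pr P₂ p := by
  simp only [partFun]
  rw [← tsum_mul_left (a := a), ← tsum_mul_left (a := b),
    ← ((summable_partFun hS Pr P₁ p).mul_left a).tsum_add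
      ((summable_partFun hS Pr P₂ p).mul_left b)]
  refine tsum_congr fun γ => ?_
  split_ifs
  · exact h _ _
  · simp

/-- On a low part the classes and the part are bounded. -/
lemma exists_part_low_bound (Q : TwPG τ → Prop) (P : PKer F S) {δ : ℝ} (hδ : 0 < δ) :
    ∃ C : ℝ, ∀ p,
      ∑' γ, (if Q γ then ‖(lowSet F S δ).indicator (twVal P hS γ) p‖ₑ else 0) ≤ ENNReal.ofReal C ∧
      ‖(lowSet F S δ).indicator (partFun hS Pr P) p‖ₑ ≤ ENNReal.ofReal C := by
  obtain ⟨C, hC⟩ := exists_low_bound hS P hδ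
  refine ⟨C, fun p => ?_⟩
  by_cases hp : p ∈ lowSet F S δ
  · refine ⟨le_trans (ENNReal.tsum_le_tsum fun γ => ?_) (hC p hp), ?_⟩
    · split_ifs
      · rw [indicator_of_mem hp]
      · exact zero_le
    · rw [indicator_of_mem hp]
      refine (enorm_tsum_le_tsum_enorm).trans ((ENNReal.tsum_le_tsum fun γ => ?_).trans (hC p hp))
      split_ifs
      · exact le_rfl
      · simp
  · simp [indicator_of_notMem hp]

/-- The truncated part unfolds onto the diagonal classes. -/
lemma unfold_low_part {Ξ : Type*} [Countable Ξ] (base : Ξ → TwPG τ)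
    (hinv : ∀ (δ : PG F) γ, Pr (δ • γ) ↔ Pr γ) (hbase : ∀ ξ, Pr (base ξ))
    (htwo : ∀ γ, (∃ pr, pairPt (fun _ : Ξ => dTor τ) base pr = γ) →
      {pr | pairPt (fun _ : Ξ => dTor τ) base pr = γ}.ncard = 2)
    (P : PKer F S)
    (hsupp : ∀ γ p, Pr γ → twVal P hS γ p ≠ 0 → ∃ pr, pairPt (fun _ : Ξ => dTor τ) base pr = γ)
    {D : Set (Pt F S)} (hD : IsFundamentalDomain (PG F) D ptMeasure) {δ : ℝ} (hδ : 0 < δ) :
    (∀ ξ, IntegrableOn ((lowSet F S δ).indicator (twVal P hS (base ξ)))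
      (cosetDomain (dTor τ) D) ptMeasure) ∧
      IntegrableOn ((lowSet F S δ).indicator (partFun hS Pr P)) D ptMeasure ∧
      (Summable fun ξ => ∫ p in cosetDomain (dTor τ) D,
        (lowSet F S δ).indicator (twVal P hS (base ξ)) p ∂ptMeasure) ∧
      ∫ p in D, (lowSet F S δ).indicator (partFun hS Pr P) p ∂ptMeasure = 2⁻¹ *
        ∑' ξ, ∫ p in cosetDomain (dTor τ) D,
          (lowSet F S δ).indicator (twVal P hS (base ξ)) p ∂ptMeasure := by
  set Q : TwPG τ → Prop := fun γ => ∃ pr, pairPt (fun _ : Ξ => dTor τ) base pr = γ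
  have hQP : ∀ γ, Q γ → Pr γ := by
    rintro _ ⟨⟨ξ, d⟩, rfl⟩
    exact (hinv _ _).2 (hbase ξ)
  obtain ⟨C, hC⟩ := exists_part_low_bound hS Pr Q P hδ
  -- the truncated majorant is integrable
  have hlin : ∫⁻ p in D, ∑' γ, (if Q γ then
      ‖(lowSet F S δ).indicator (twVal P hS γ) p‖ₑ else 0) ∂ptMeasure < ∞ := by
    refine lt_of_le_of_lt (lintegral_mono (g := fun _ => ENNReal.ofReal C) fun p => (hC p).1) ?_
    rw [setLIntegral_const]
    exact ENNReal.mul_lt_top ENNReal.ofReal_lt_top (domain_finite hD)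
  set Fε : TwPG τ → Pt F S → ℂ := fun γ => (lowSet F S δ).indicator (twVal P hS γ)
  -- unfold two to one
  have h := integral_two_to_one (P := Q) (H := fun _ : Ξ => dTor τ) (base := base)
    (fun pr => ⟨pr, rfl⟩)
    htwo hD (F := Fε) (fun g γ p => by simp only [Fε, indicator_apply, lowSet_smul, twVal_smul])
    (fun γ => ((measurable_twVal P hS γ).indicator (measurableSet_lowSet δ)).aestronglyMeasurable)
      hlin
  refine ⟨h.1, ?_, summable_trunc hS base htwo hD P hlin, ?_⟩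
  · refine IntegrableOn.of_bound (domain_finite hD)
      ((measurable_partFun hS Pr _).indicator (measurableSet_lowSet δ)).aestronglyMeasurable
        (max C 0)
      (Eventually.of_forall fun p => ?_)
    have := (hC p).2.trans (ENNReal.ofReal_le_ofReal (le_max_left C 0))
    rwa [← ofReal_norm, ENNReal.ofReal_le_ofReal_iff (le_max_right _ _)] at this
  · rw [← h.2]
    refine integral_congr_ae (Eventually.of_forall fun p => ?_)
    show (lowSet F S δ).indicator (partFun hS Pr P) p = _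
    simp only [Fε, indicator_apply, partFun]
    by_cases hp : p ∈ lowSet F S δ
    · simp only [if_pos hp]
      refine tsum_congr fun γ => ?_
      by_cases hv : twVal P hS γ p = 0
      · simp [hv]
      · by_cases hg : Pr γ
        · rw [if_pos hg, if_pos (hsupp γ p hg hv)]
        · rw [if_neg hg, if_neg fun h => hg (hQP γ h)]
    · simp [hp]

omit hS Pr in
/-- The truncations of an integrable function tend to its integral. -/
lemma tendsto_integral_lowSet {D : Set (Pt F S)} {f : Pt F S → ℂ} (hf : IntegrableOn f D ptMeasure)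
    {u : ℕ → ℝ} (hu : Tendsto u atTop (𝓝 0)) :
    Tendsto (fun k => ∫ p in D, (lowSet F S (u k)).indicator f p ∂ptMeasure) atTop
      (𝓝 (∫ p in D, f p ∂ptMeasure)) := by
  refine tendsto_integral_of_dominated_convergence (fun p => ‖f p‖)
    (fun k => hf.1.indicator (measurableSet_lowSet _)) hf.norm
    (fun k => Eventually.of_forall fun p => norm_indicator_le_norm_self _ _)
      (Eventually.of_forall fun p => ?_)
  obtain ⟨δ, hδ, hp⟩ := exists_mem_lowSet p
  refine tendsto_const_nhds.congr' ?_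
  filter_upwards [(tendsto_order.1 hu).2 δ hδ] with k hk
  rw [indicator_of_mem (show p ∈ lowSet F S (u k) from fun v hv => hk.le.trans (hp v hv))]

/-- A combination whose truncations are affine in the logarithm is the fixed part. -/
lemma part_limit {ι : Type*} [Fintype ι] (c : ι → ℂ) (P : ι → PKer F S) {D : Set (Pt F S)}
    (hI : IntegrableOn (fun p => ∑ i, c i * partFun hS Pr (P i) p) D ptMeasure)
    (hint : ∀ i δ, 0 < δ → IntegrableOn ((lowSet F S δ).indicator (partFun hS Pr (P i))) D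
    ptMeasure) {A B : ι → ℂ} {ε₀ : ι → ℝ} (hε₀ : ∀ i, 0 < ε₀ i)
    (hval : ∀ i ε, 0 < ε → ε ≤ ε₀ i → ε ≤ 1 →
      ∫ p in D, (lowSet F S ε).indicator (partFun hS Pr (P i)) p ∂ptMeasure
        = 2⁻¹ * (((-2 * Real.log ε : ℝ) : ℂ) * A i + B i)) :
    ∑ i, c i * A i = 0 ∧
      ∫ p in D, (∑ i, c i * partFun hS Pr (P i) p) ∂ptMeasure = 2⁻¹ * ∑ i, c i * B i := by
  obtain ⟨η, hη0, hη1, hηi⟩ := exists_radius_le ε₀ hε₀
  refine eq_zero_and_eq_of_log_affine hη0
    (G := fun ε => ∫ p in D,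
      (lowSet F S ε).indicator (fun p => ∑ i, c i * partFun hS Pr (P i) p) p ∂ptMeasure)
    (fun u hu => tendsto_integral_lowSet hI hu) fun ε hε hεη => ?_
  have e : ∀ p, (lowSet F S ε).indicator (fun p => ∑ i, c i * partFun hS Pr (P i) p) p
      = ∑ i, c i * (lowSet F S ε).indicator (partFun hS Pr (P i)) p := fun p => by
    by_cases hp : p ∈ lowSet F S ε <;> simp [hp]
  simp only [e]
  rw [integral_finsetSum _ fun i _ => ((hint i ε hε).const_mul (c i))]
  simp only [integral_const_mul]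
  rw [Finset.mul_sum, ← Finset.sum_add_distrib, Finset.mul_sum]
  refine Finset.sum_congr rfl fun i _ => ?_
  rw [hval i ε hε (hεη.trans (hηi i)) (hεη.trans hη1)]
  ring

/-- **A part of a combination seen through diagonal classes has a density.** -/
theorem hasDensity_part {Ξ : Type*} [Countable Ξ] (α : Ξ → Fˣ) (nn : Ξ → ℕ) {ι : Type*} [Fintype ι]
    (c : ι → ℂ) (P : ℝ[X] → ι → PKer F S)
    {D : Set (Pt F S)} (hD : IsFundamentalDomain (PG F) D ptMeasure)
    (hinv : ∀ (δ : PG F) γ, Pr (δ • γ) ↔ Pr γ) (hbase : ∀ ξ, Pr (diagCls τ (α ξ)))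
    (htwo : ∀ γ, (∃ pr, pairPt (fun _ : Ξ => dTor τ) (fun ξ => diagCls τ (α ξ)) pr = γ) →
      {pr | pairPt (fun _ : Ξ => dTor τ) (fun ξ => diagCls τ (α ξ)) pr = γ}.ncard = 2)
    (hsupp : ∀ r i γ p, Pr γ → twVal (P r i) hS γ p ≠ 0 →
      ∃ pr, pairPt (fun _ : Ξ => dTor τ) (fun ξ => diagCls τ (α ξ)) pr = γ)
    (hfix : ∀ ξ (x : F), τ x * (α ξ : F) = x → x = 0) {q : ℕ} (hq : 0 < q) (M : ℕ)
    (hM : ∀ r i ξ p, twVal (P r i) hS (diagCls τ (α ξ)) p ≠ 0 → nn ξ ≤ M)
    (hodd : ∀ ξ, nn ξ % 2 = 1) {B : Finset (Place F)}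
    (harch : ∀ r r' i, (P r i).arch = (P r' i).arch) (J : ℝ[X] → ℕ → ℂ)
    (hblock : ∀ i ξ ν, ∃ h : ℂ, ∀ r,
      blockSum (P r i) hS (α ξ) B (fun _ => 1) ν = ctil q (kern q (oddP r)) (nn ξ) * h ∧
      blockSum (P r i) hS (α ξ) B (blockW B) ν = J r (nn ξ) * h)
    (hreal : ∀ r n, starRingEnd ℂ (ctil q (kern q (oddP r)) n) = ctil q (kern q (oddP r)) n)
    (hadd : ∀ r s i x y, (P (r + s) i).val x y = (P r i).val x y + (P s i).val x y)
    (hsmul : ∀ (a : ℝ) r i x y, (P (a • r) i).val x y = (a : ℂ) * (P r i).val x y)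
    (hI : ∀ r, IntegrableOn (fun p => ∑ i, c i * partFun hS Pr (P r i) p) D ptMeasure) :
    HasDensity q (fun r => ∫ p in D, ∑ i, c i * partFun hS Pr (P r i) p ∂ptMeasure) := by
  refine hasDensity_of_vanish hq (fun r s => ?_) (fun a r => ?_) hreal M fun r₁ hr₁ => ?_
  · rw [← integral_add (hI r) (hI s)]
    refine integral_congr_ae (Eventually.of_forall fun p => ?_)
    simp only [fun i => partFun_linear hS Pr (P₁ := P r i) (P₂ := P s i) (P := P (r + s) i) 1 1
      (fun x y => by rw [hadd, one_mul, one_mul]) p, one_mul, mul_add, Finset.sum_add_distrib]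
  · rw [← integral_const_mul]
    refine integral_congr_ae (Eventually.of_forall fun p => ?_)
    simp only [fun i => partFun_linear hS Pr (P₁ := P r i) (P₂ := P r i)
      (P := P (a • r) i) (a : ℂ) 0
      (fun x y => by rw [hsmul, zero_mul, add_zero]) p, zero_mul, add_zero, Finset.mul_sum,
        mul_left_comm]
  obtain ⟨ψ, hψ⟩ := exists_isTorusWeight (S := S) τ
  choose ε₀ hε₀ hax using fun r i => exists_axes_radius hS (P r i)
  have hunf := fun r i δ (hδ : (0 : ℝ) < δ) =>
    unfold_low_part hS Pr _ hinv hbase htwo (P r i) (hsupp r i) hD hδ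
  -- one class
  have hdiag : ∀ r i ξ, CutInt (P r i) hS ψ (α ξ) ∧ ∀ ε, 0 < ε → ε ≤ ε₀ r i → ε ≤ 1 →
      ∫ p in cosetDomain (dTor τ) D,
        (lowSet F S ε).indicator (twVal (P r i) hS (diagCls τ (α ξ))) p ∂ptMeasure
        = ((-2 * Real.log ε : ℝ) : ℂ) * lowA (P r i) hS ψ (α ξ) + lowB (P r i) hS ψ (α ξ) :=
    fun r i ξ =>
      integral_low_diag (P r i) hS hψ (isFundamentalDomain_cosetDomain hD (dTor τ)) (hε₀ r i)
      (hax r i (α ξ) (hfix ξ)) fun δ hδ => (hunf r i δ hδ).1 ξ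
  set R : ι → Ξ → ℂ := fun i ξ => lowA (P (X ^ (nn ξ / 2)) i) hS ψ (α ξ)
  have hct : ∀ ξ, ctil q (kern q (oddP ((X : ℝ[X]) ^ (nn ξ / 2)))) (nn ξ) = 1 := fun ξ => by
    rw [oddP_X_pow, show 2 * (nn ξ / 2) + 1 = nn ξ by have := hodd ξ; omega]
    exact ctil_X_pow_self q _
  have hA : ∀ r i ξ, lowA (P r i) hS ψ (α ξ) = ctil q (kern q (oddP r)) (nn ξ) * R i ξ :=
      fun r i ξ =>
    lowA_block hψ (harch r _ i) (fun ν => by
      obtain ⟨h, hh⟩ := hblock i ξ ν
      rw [(hh r).1, (hh _).1, hct, one_mul]) (hdiag r i ξ).1 (hdiag _ i ξ).1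
  have hzero : ∀ r i ξ, M < nn ξ → lowA (P r i) hS ψ (α ξ) = 0 ∧ lowB (P r i) hS ψ (α ξ) = 0 := by
    intro r i ξ h
    have hz : ∀ p, twVal (P r i) hS (diagCls τ (α ξ)) p = 0 := fun p =>
      by_contra fun hne => absurd (hM r i ξ p hne) (not_le.2 h)
    constructor <;> simp [lowA, lowB, hz]
  have hsA := fun r i => summable_of_log_affine (hε₀ r i) (fun δ hδ => (hunf r i δ hδ).2.2.1)
    fun ξ => (hdiag r i ξ).2
  -- the limit
  have hlimit := fun r => part_limit hS Pr c (P r) (hI r) (fun i δ hδ => (hunf r i δ hδ).2.1)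
    (A := fun i => ∑' ξ, lowA (P r i) hS ψ (α ξ)) (B := fun i => ∑' ξ, lowB (P r i) hS ψ (α ξ))
    (hε₀ r) fun i ε hε hi h1 => by
      rw [(hunf r i ε hε).2.2.2, tsum_congr fun ξ => (hdiag r i ξ).2 ε hε hi h1,
        ((hsA r i).1.mul_left _).tsum_add (hsA r i).2, tsum_mul_left]
  -- group by group
  have hR : ∀ i n, Summable fun ξ => if nn ξ = n then R i ξ else 0 := fun i n => by
    refine ((hsA ((X : ℝ[X]) ^ (n / 2)) i).1.indicator {ξ | nn ξ = n}).congr fun ξ => ?_
    rw [indicator_apply]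
    by_cases h : nn ξ = n
    · simp only [Set.mem_ofPred_eq, R, h]
    · simp only [Set.mem_ofPred_eq, if_neg h]
  have hRM : ∀ i ξ, M < nn ξ → R i ξ = 0 := fun i ξ h => (hzero _ i ξ h).1
  set N : ℕ → ℂ := fun n => ∑ i, c i * ∑' ξ, if nn ξ = n then R i ξ else 0
  have hgrp : ∀ f : ℕ → ℂ, ∑ i, c i * ∑' ξ, f (nn ξ) * R i ξ =
      ∑ n ∈ Finset.range (M + 1), f n * N n := fun f => by
    simp only [fun i => tsum_group nn M f (hR i) (hRM i), N, Finset.mul_sum]
    rw [Finset.sum_comm]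
    exact Finset.sum_congr rfl fun n _ => Finset.sum_congr rfl fun i _ => by ring
  have hN : ∀ n ≤ M, N n = 0 := group_eq_zero
    (fun n hn => Finset.sum_eq_zero fun i _ => by
      rw [(tsum_congr fun ξ => if_neg fun h : nn ξ = n => by have := hodd ξ; omega).trans tsum_zero,
        mul_zero])
    fun k => by
      have h := (hlimit ((X : ℝ[X]) ^ k)).1
      simp only [hA] at h
      rwa [hgrp fun m => ctil q (kern q (oddP ((X : ℝ[X]) ^ k))) m] at h
  rw [(hlimit r₁).2]
  refine mul_eq_zero_of_right _ ?_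
  have e : ∀ i ξ, lowB (P r₁ i) hS ψ (α ξ) = J r₁ (nn ξ) * R i ξ := fun i ξ => by
    by_cases hn : nn ξ ≤ M
    · refine lowB_block (B := B) hψ (harch r₁ _ i) (fun ν => ?_) (fun ν => ?_) (hdiag r₁ i ξ).1
        (hdiag _ i ξ).1
      · obtain ⟨h, hh⟩ := hblock i ξ ν
        rw [(hh r₁).2, (hh _).1, hct, one_mul]
      · obtain ⟨h, hh⟩ := hblock i ξ ν
        rw [(hh r₁).1, hr₁ _ hn, zero_mul]
    · rw [(hzero r₁ i ξ (not_le.1 hn)).2, hRM i ξ (not_le.1 hn), mul_zero]
  simp only [e]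
  rw [hgrp]
  exact Finset.sum_eq_zero fun n hn => by
    rw [hN n (Nat.lt_succ_iff.1 (Finset.mem_range.1 hn)), mul_zero]

end Fermat.LTG
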