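import Fermat.Agent.LTG.Hyp.Torus
import Fermat.Agent.LT.HypVanish

/-!
# A diagonal class summed over the heights at a block

The cut-off turns into a length `2 L + ℓ`.  If, over the heights at a block, two kernels have
proportional sums, so have the integrals of a weight that does not see the block.
-/

set_option autoImplicit false
open NumberField MeasureTheory Filter Set
open scoped Classical Matrix

namespace Fermat.LTG

open Fermat.LT

variable {F : Type*} [Field F] [NumberField F] {S : Lev F}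

/-- Equal away from a block, with the same heights on it. -/
def SameBlock (B : Finset (Place F)) (μ ν : FinPt F S) : Prop :=
  (∀ w ∉ B, μ.1 w = ν.1 w) ∧
    ∀ w ∈ B, nloc w (eInf : Fin 2 → F) (μ.1 w) = nloc w (eInf : Fin 2 → F) (ν.1 w)

/-- The product of the two axis heights over a block, as a logarithm. -/
noncomputable def blockW (B : Finset (Place F)) (μ : FinPt F S) : ℝ :=
  Real.log (∏ w ∈ B, (nloc w (eInf : Fin 2 → F) (μ.1 w) * nloc w ![1, 0] (μ.1 w)))

variable [IsTotallyComplex F] {τ : F ≃+* F}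

/-- The sum of a weight times the finite factor of a diagonal class over the heights at a block. -/
noncomputable def blockSum (P : PKer F S) (hS : Stable τ S) (α : Fˣ) (B : Finset (Place F))
    (W₀ : FinPt F S → ℝ) (ν : FinPt F S) : ℂ :=
  ∑' μ : {μ : FinPt F S // SameBlock B μ ν},
    (W₀ μ.1 : ℂ) * P.fin μ.1 (upMat α (0 : F) • FinPt.amap hS μ.1)

variable (P : PKer F S) (hS : Stable τ S)

/-- The term of a diagonal class is invariant under the torus. -/
lemma twVal_diag_invariant (α : Fˣ) (t : dTor τ) (p : Pt F S) :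
    twVal P hS (diagCls τ α) (t • p) = twVal P hS (diagCls τ α) p := by
  conv_lhs => rw [← smul_diagCls t α]
  exact twVal_smul P hS _ _ _

/-- The term of a diagonal class is invariant under the scaling flow. -/
lemma twVal_diag_flow (α : Fˣ) (s : ℝ) (p : Pt F S) :
    twVal P hS (diagCls τ α) (scaleFlow s p) = twVal P hS (diagCls τ α) p := by
  rw [twVal, twVal, diagCls, TwPG.cls_of, PG.mk_smul, PG.mk_smul, scaleFlow_amap, ← scaleFlow_upMat]
  generalize upMat α (0 : F) • Pt.amap hS p = q
  change _ * _ = _ * _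
  congr 1
  exact Finset.prod_congr rfl fun w _ => (P.arch w).invariant _ _ _

omit [IsTotallyComplex F] in
/-- The local product of the two axis heights is at least one. -/
lemma one_le_nloc_mul (v : Place F) (a : Vert S v) :
    1 ≤ nloc v (eInf : Fin 2 → F) a * nloc v ![1, 0] a :=
  one_le_nfin_axes v a.out

/-- The logarithm of the product of the two axis heights. -/
noncomputable def axisLog (p : Pt F S) : ℝ :=
  Real.log (ht (eInf : Fin 2 → F) p * ht ![1, 0] p)

omit [IsTotallyComplex F] in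
/-- The product of the heights split at a block. -/
lemma ht_mul_split (B : Finset (Place F)) (p : Pt F S) : ∃ R : ℝ, 1 ≤ R ∧
    ht (eInf : Fin 2 → F) p * ht ![1, 0] p
      = (∏ w ∈ B, (nloc w (eInf : Fin 2 → F) (p.1.1 w) * nloc w ![1, 0] (p.1.1 w))) * R ∧
    ∀ q : Pt F S, q.2 = p.2 → (∀ w ∉ B, q.1.1 w = p.1.1 w) →
      ht (eInf : Fin 2 → F) q * ht ![1, 0] q
        = (∏ w ∈ B, (nloc w (eInf : Fin 2 → F) (q.1.1 w) * nloc w ![1, 0] (q.1.1 w))) * R := by
  have hfs : ∀ {u : Fin 2 → F}, u ≠ 0 →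
      ∀ ω : FinPt F S, (Function.mulSupport fun w => nloc w u (ω.1 w)).Finite :=
    fun hu ω => eventually_cofinite.1 (eventually_nloc_eq_one hu ω)
  obtain ⟨R, hR, h⟩ := ht_mul_split_gen B (g := fun w => (p.1.1 w).out) p.2 (hfs eInf_ne_zero p.1)
    (hfs axis_zero_ne p.1)
  refine ⟨R, hR, h _ (hfs eInf_ne_zero p.1) (hfs axis_zero_ne p.1) fun _ _ => ⟨rfl, rfl⟩,
    fun q h2 h1 => ?_⟩
  rw [ht, ht, h2]
  exact h _ (hfs eInf_ne_zero q.1) (hfs axis_zero_ne q.1) fun w hw => by
    rw [h1 w hw]; exact ⟨rfl, rfl⟩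

omit [IsTotallyComplex F] in
/-- The logarithm over a block is nonnegative. -/
lemma blockW_nonneg (B : Finset (Place F)) (μ : FinPt F S) : 0 ≤ blockW B μ :=
  Real.log_nonneg (Finset.one_le_prod fun w _ => one_le_nloc_mul w _)

/-- The logarithm over a block is at most the one over all places. -/
lemma blockW_le (B : Finset (Place F)) (p : Pt F S) : blockW B p.1 ≤ axisLog p := by
  have h1 : 1 ≤ ∏ w ∈ B, (nloc w (eInf : Fin 2 → F) (p.1.1 w) * nloc w ![1, 0] (p.1.1 w)) :=
    Finset.one_le_prod fun w _ => one_le_nloc_mul w _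
  obtain ⟨R, hR, e, -⟩ := ht_mul_split B p
  refine Real.log_le_log (zero_lt_one.trans_le h1) ?_
  rw [e]
  exact le_mul_of_one_le_right (zero_le_one.trans h1) hR

/-- The logarithm of the axis heights is nonnegative. -/
lemma axisLog_nonneg (p : Pt F S) : 0 ≤ axisLog p :=
  (blockW_nonneg ∅ p.1).trans (blockW_le ∅ p)

omit [IsTotallyComplex F] in
/-- The logarithm of the axis heights is measurable. -/
lemma measurable_axisLog : Measurable (axisLog : Pt F S → ℝ) :=
  Real.measurable_log.comp ((measurable_ht _).mul (measurable_ht _))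

/-- The torus fixes both axes, hence the product of their heights. -/
lemma axisLog_dTor (t : dTor τ) (p : Pt F S) : axisLog (t • p) = axisLog p := by
  obtain ⟨a, -, ha⟩ := mem_dTor.1 t.2
  rw [axisLog, axisLog, Subgroup.smul_def, ← ha, PG.mk_smul, ht_eInf_upMat_smul,
    ht_smul axis_zero_ne,
    show (![1, 0] : Fin 2 → F) ᵥ* (upMat a (0 : F) : Matrix (Fin 2) (Fin 2) F) =
        (a : F) • ![1, 0] by
      funext i; fin_cases i <;> simp [Matrix.vecMul, dotProduct],
    ht_smul_vec axis_zero_ne]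

/-- The flow moves the two axis heights inversely. -/
lemma axisLog_scaleFlow (s : ℝ) (p : Pt F S) : axisLog (scaleFlow s p) = axisLog p := by
  rw [axisLog, axisLog, ht_eInf_scaleFlow, ht_zero_scaleFlow]
  congr 1
  rw [mul_mul_mul_comm, ← Real.exp_add, neg_add_cancel, Real.exp_zero, mul_one]

/-- The part of the axis logarithm away from a block does not see it. -/
lemma axisLog_sub_blockW {B : Finset (Place F)} {μ ν : FinPt F S} (h : SameBlock B μ ν)
    (y : InfinitePlace F → H3) :
    axisLog (μ, y) - blockW B μ = axisLog (ν, y) - blockW B ν := by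
  obtain ⟨R, hR, e, e'⟩ := ht_mul_split B ((ν, y) : Pt F S)
  have e'' := e' (μ, y) rfl h.1
  have hpos : ∀ ρ : FinPt F S, 0 < ∏ w ∈ B,
      (nloc w (eInf : Fin 2 → F) (ρ.1 w) * nloc w ![1, 0] (ρ.1 w)) :=
    fun ρ => Finset.prod_pos fun w _ => zero_lt_one.trans_le (one_le_nloc_mul w _)
  simp only [axisLog, blockW, e, e'']
  rw [Real.log_mul (hpos μ).ne' (zero_lt_one.trans_le hR).ne',
    Real.log_mul (hpos ν).ne' (zero_lt_one.trans_le hR).ne']
  ring

omit [IsTotallyComplex F] in
/-- **Proportional sums over a block give proportional integrals.** -/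
theorem integral_block_rel {α : Fˣ} {B : Finset (Place F)} (Q : PKer F S) (harch : P.arch = Q.arch)
    {c : ℂ} {W₀ : FinPt F S → ℝ}
    (h : ∀ ν, blockSum P hS α B W₀ ν = c * blockSum Q hS α B (fun _ => 1) ν)
    (W : Pt F S → ℝ) (hW : ∀ μ ν : FinPt F S, SameBlock B μ ν → ∀ y, W (μ, y) = W (ν, y))
    (h1 : Integrable (fun p => (W p * W₀ p.1) • twVal P hS (diagCls τ α) p) ptMeasure)
    (h2 : Integrable (fun p => W p • twVal Q hS (diagCls τ α) p) ptMeasure) :
    ∫ p, (W p * W₀ p.1) • twVal P hS (diagCls τ α) p ∂ptMeasure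
      = c * ∫ p, W p • twVal Q hS (diagCls τ α) p ∂ptMeasure := by
  have : DiscreteMeasurableSpace (FinPt F S) := ⟨fun _ => trivial⟩
  set H₁ : FinPt F S × (InfinitePlace F → H3) → ℂ :=
    fun p => (W p * W₀ p.1) • twVal P hS (diagCls τ α) p with hH₁
  set H₂ : FinPt F S × (InfinitePlace F → H3) → ℂ :=
    fun p => W p • twVal Q hS (diagCls τ α) p with hH₂
  have h1' : Integrable H₁
    ((Measure.count : Measure (FinPt F S)).prod (Measure.pi fun _ => hmeas)) := h1
  have h2' : Integrable H₂
    ((Measure.count : Measure (FinPt F S)).prod (Measure.pi fun _ => hmeas)) := h2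
  change ∫ p, H₁ p ∂((Measure.count : Measure (FinPt F S)).prod (Measure.pi fun _ => hmeas))
    = c * ∫ p, H₂ p ∂((Measure.count : Measure (FinPt F S)).prod (Measure.pi fun _ => hmeas))
  -- integrate over the archimedean coordinate last
  rw [integral_prod_symm H₁ h1', integral_prod_symm H₂ h2', ← integral_const_mul]
  refine integral_congr_ae ?_
  filter_upwards [h1'.prod_left_ae, h2'.prod_left_ae] with y hy1 hy2
  have hs1 : Summable fun ν => H₁ (ν, y) := Summable.of_norm (integrable_count_iff.1 hy1)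
  have hs2 : Summable fun ν => H₂ (ν, y) := Summable.of_norm (integrable_count_iff.1 hy2)
  rw [integral_countable hy1, integral_countable hy2]
  simp only [measureReal_def, Measure.count_singleton, ENNReal.toReal_one, one_smul]
  rw [← sub_eq_zero, ← tsum_mul_left, ← hs1.tsum_sub (hs2.mul_left c)]
  let π : FinPt F S → ({w : Place F // w ∉ B} → Σ w, Vert S w) × ({w : Place F // w ∈ B} → ℝ) :=
      fun μ =>
    (fun w => ⟨w.1, μ.1 w.1⟩, fun w => nloc w.1 (eInf : Fin 2 → F) (μ.1 w.1))
  -- sum block by block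
  refine tsum_eq_zero_of_fibres π (hs1.sub (hs2.mul_left c)) fun ν => ?_
  have hπ : ∀ μ, π μ = π ν ↔ SameBlock B μ ν := fun μ => by
    simp only [π, SameBlock, Prod.mk.injEq, funext_iff, Sigma.mk.injEq, Subtype.forall,
      heq_eq_eq, true_and]
  set I : ℂ := (W (ν, y) : ℂ)
    * P.inf y (fun w => atInf w (upMat α (0 : F)) • extH y (w.embedding.comp (τ : F →+* F))) with hI
  have e1 : ∀ μ, SameBlock B μ ν → H₁ (μ, y)
      = I * ((W₀ μ : ℂ) * P.fin μ (upMat α (0 : F) • FinPt.amap hS μ)) := fun μ hμ => by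
    rw [hH₁, hI]
    change (W (μ, y) * W₀ μ) • twVal P hS (diagCls τ α) (μ, y) = _
    rw [hW μ ν hμ y, twVal, diagCls, TwPG.cls_of, PG.mk_smul, Complex.real_smul, Complex.ofReal_mul]
    change _ * (P.fin μ (upMat α (0 : F) • FinPt.amap hS μ)
      * P.inf y fun w => atInf w (upMat α (0 : F)) • extH y (w.embedding.comp (τ : F →+* F))) = _
    ring
  have e2 : ∀ μ, SameBlock B μ ν → H₂ (μ, y)
      = I * (((1 : ℝ) : ℂ) * Q.fin μ (upMat α (0 : F) • FinPt.amap hS μ)) := fun μ hμ => by
    rw [hH₂, hI]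
    change W (μ, y) • twVal Q hS (diagCls τ α) (μ, y) = _
    rw [hW μ ν hμ y, twVal, diagCls, TwPG.cls_of, PG.mk_smul, Complex.real_smul]
    change _ * (Q.fin μ (upMat α (0 : F) • FinPt.amap hS μ)
      * Q.inf y fun w => atInf w (upMat α (0 : F)) • extH y (w.embedding.comp (τ : F →+* F))) = _
    simp only [PKer.inf, harch, Complex.ofReal_one, one_mul]
    ring
  have hv := h ν
  simp only [blockSum] at hv
  rw [← (Equiv.subtypeEquivRight hπ).symm.tsum_eq]
  change ∑' μ : {μ // SameBlock B μ ν}, (H₁ (μ.1, y) - c * H₂ (μ.1, y)) = 0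
  have t1 : Summable fun μ : {μ // SameBlock B μ ν} => H₁ (μ.1, y) := hs1.subtype _
  have t2 : Summable fun μ : {μ // SameBlock B μ ν} => H₂ (μ.1, y) := hs2.subtype _
  rw [t1.tsum_sub (t2.mul_left c), tsum_mul_left,
    tsum_congr fun μ : {μ // SameBlock B μ ν} => e1 μ.1 μ.2,
    tsum_congr fun μ : {μ // SameBlock B μ ν} => e2 μ.1 μ.2, tsum_mul_left, tsum_mul_left, hv]
  ring

/-! ### the cut-off -/

/-- A partition of unity along the torus, seen through the heights at `∞`. -/
structure IsTorusWeight (τ : F ≃+* F) (ψ : Pt F S → ℝ) : Prop where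
  /-- The weight is measurable. -/
  meas : Measurable ψ
  /-- The weight is nonnegative. -/
  nonneg : ∀ p, 0 ≤ ψ p
  /-- The translates by the torus sum to one. -/
  hasSum : ∀ p, HasSum (fun t : dTor τ => ψ (t • p)) 1
  /-- The weight depends only on the heights seen by `torKey`. -/
  key : ∀ p q, torKey p = torKey q → ψ p = ψ q

/-- A weight along the torus exists. -/
lemma exists_isTorusWeight (τ : F ≃+* F) : ∃ ψ : Pt F S → ℝ, IsTorusWeight τ ψ := by
  obtain ⟨ψ, h1, h2, h3, h4⟩ := exists_torus_weight (S := S) τ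
  exact ⟨ψ, h1, h2, h3, h4⟩

/-- One slab of the weight. -/
noncomputable def slab (ψ : Pt F S → ℝ) (p : Pt F S) :
    ℝ := if 0 ≤ hPhi p ∧ hPhi p < 1 then ψ p else 0

/-- The growing part of a truncated integral. -/
noncomputable def lowA (ψ : Pt F S → ℝ) (α : Fˣ) : ℂ :=
  ∫ p, slab ψ p • twVal P hS (diagCls τ α) p ∂ptMeasure

/-- The fixed part of a truncated integral. -/
noncomputable def lowB (ψ : Pt F S → ℝ) (α : Fˣ) : ℂ :=
  ∫ p, (slab ψ p * axisLog p) • twVal P hS (diagCls τ α) p ∂ptMeasure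

omit [IsTotallyComplex F] in
/-- A slab does not see a change inside a block. -/
lemma slab_sameBlock {ψ : Pt F S → ℝ} (hψ : IsTorusWeight τ ψ) {B : Finset (Place F)}
    {μ ν : FinPt F S} (h : SameBlock B μ ν) (y : InfinitePlace F → H3) :
    slab ψ (μ, y) = slab ψ (ν, y) := by
  have hall : ∀ w, nloc w (eInf : Fin 2 → F) (μ.1 w) = nloc w (eInf : Fin 2 → F) (ν.1 w) :=
      fun w => by
    by_cases hw : w ∈ B
    · exact h.2 w hw
    · rw [h.1 w hw]
  have e1 : hPhi (μ, y) = hPhi (ν, y) := by
    simp only [hPhi, ht]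
    congr 3
    exact finprod_congr hall
  have e2 : ψ (μ, y) = ψ (ν, y) := hψ.key _ _ (Prod.ext (funext hall) rfl)
  simp only [slab, e1, e2]

/-- The two parts can be integrated. -/
def CutInt (ψ : Pt F S → ℝ) (α : Fˣ) : Prop :=
  Integrable (fun p => slab ψ p • twVal P hS (diagCls τ α) p) ptMeasure ∧
    Integrable (fun p => (slab ψ p * axisLog p) • twVal P hS (diagCls τ α) p) ptMeasure

/-- **The truncated integral of a diagonal class** is affine in the logarithm of the cut-off, with
coefficients `lowA` and `lowB`. -/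
theorem integral_low_diag {α : Fˣ} {ψ : Pt F S → ℝ} (hψ : IsTorusWeight τ ψ) {D : Set (Pt F S)}
    (hD : @IsFundamentalDomain (dTor τ) (Pt F S) _ _ _ D ptMeasure) {ε₀ : ℝ} (hε₀ : 0 < ε₀)
    (hax : ∀ p, twVal P hS (diagCls τ α) p ≠ 0 → ∀ ε ≤ ε₀,
      (p ∈ lowSet F S ε ↔ ε ≤ ht (eInf : Fin 2 → F) p ∧ ε ≤ ht ![1, 0] p))
    (hint : ∀ ε, 0 < ε → IntegrableOn ((lowSet F S ε).indicator (twVal P hS (diagCls τ α)))
    D ptMeasure) :
    CutInt P hS ψ α ∧
      ∀ ε, 0 < ε → ε ≤ ε₀ → ε ≤ 1 →
        ∫ p in D, (lowSet F S ε).indicator (twVal P hS (diagCls τ α)) p ∂ptMeasure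
          = ((-2 * Real.log ε : ℝ) : ℂ) * lowA P hS ψ α + lowB P hS ψ α := by
  have : DiscreteMeasurableSpace (FinPt F S) := ⟨fun _ => trivial⟩
  simp only [CutInt, lowA, lowB]
  set G := twVal P hS (diagCls τ α)
  have hG : Measurable G := measurable_twVal P hS _
  have hΦ := isHeightFlow_scale (S := S) τ
  -- both sides at one cut
  have hcut : ∀ δ, 0 < δ → δ ≤ ε₀ → δ ≤ 1 →
      Integrable (fun p => (slab ψ p * (-2 * Real.log δ + axisLog p)) • G p) ptMeasure ∧
      ∫ p, (slab ψ p * (-2 * Real.log δ + axisLog p)) • G p ∂ptMeasure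
        = ∫ p in D, (lowSet F S δ).indicator G p ∂ptMeasure := fun δ hδ hδ₀ hδ1 => by
    rw [show -2 * Real.log δ = 2 * -Real.log δ by ring]
    exact hΦ.integral_cutoff hD hψ.meas hψ.nonneg hψ.hasSum measurable_axisLog axisLog_nonneg
      axisLog_dTor axisLog_scaleFlow hG (twVal_diag_invariant P hS α) (twVal_diag_flow P hS α)
      (neg_nonneg.2 (Real.log_nonpos hδ.le hδ1))
      (fun p hp => (hax p hp δ hδ₀).trans
        (le_and_le_iff_log (ht_pos eInf_ne_zero p) (ht_pos axis_zero_ne p) hδ)) (hint δ hδ)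
  set η := min ε₀ 1 with hη
  have hη0 : 0 < η := lt_min hε₀ one_pos
  obtain ⟨hA, -⟩ := hcut η hη0 (min_le_left _ _) (min_le_right _ _)
  have hee : η / Real.exp 1 ≤ η := div_le_self hη0.le (by linarith [Real.add_one_le_exp (1 : ℝ)])
  obtain ⟨hA', -⟩ := hcut (η / Real.exp 1) (by positivity) (hee.trans (min_le_left _ _))
    (hee.trans (min_le_right _ _))
  -- integrability from two cuts
  obtain ⟨hS1, hℓ⟩ := integrable_of_two_cuts hη0 hA hA'
  refine ⟨⟨hS1, hℓ⟩, fun ε hε hε₀' hε1 => ?_⟩
  rw [← (hcut ε hε hε₀' hε1).2]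
  have e : ∀ p, (slab ψ p * (-2 * Real.log ε + axisLog p)) • G p
      = (-2 * Real.log ε) • (slab ψ p • G p) + (slab ψ p * axisLog p) • G p := fun p => by
    rw [smul_smul, ← add_smul]; congr 1; ring
  simp only [e]
  rw [integral_add (hS1.fun_smul _) hℓ, integral_smul, Complex.real_smul]

variable {P hS} {Q : PKer F S} {ψ : Pt F S → ℝ} {α : Fˣ} {B : Finset (Place F)}

omit [IsTotallyComplex F] in
/-- The block rule for the growing part. -/
theorem lowA_block (hψ : IsTorusWeight τ ψ) (harch : P.arch = Q.arch) {c : ℂ}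
    (h : ∀ ν, blockSum P hS α B (fun _ => 1) ν = c * blockSum Q hS α B (fun _ => 1) ν)
    (hP : CutInt P hS ψ α) (hQ : CutInt Q hS ψ α) : lowA P hS ψ α = c * lowA Q hS ψ α := by
  have := integral_block_rel P hS Q harch h (slab ψ) (fun μ ν h y => slab_sameBlock hψ h y)
    (by simpa only [mul_one] using hP.1) hQ.1
  simpa only [mul_one, lowA] using this

/-- The block rule for the fixed part when the unweighted sums vanish. -/
theorem lowB_block (hψ : IsTorusWeight τ ψ) (harch : P.arch = Q.arch) {J : ℂ}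
    (h : ∀ ν, blockSum P hS α B (blockW B) ν = J * blockSum Q hS α B (fun _ => 1) ν)
    (h0 : ∀ ν, blockSum P hS α B (fun _ => 1) ν = 0)
    (hP : CutInt P hS ψ α) (hQ : CutInt Q hS ψ α) : lowB P hS ψ α = J * lowA Q hS ψ α := by
  have : DiscreteMeasurableSpace (FinPt F S) := ⟨fun _ => trivial⟩
  set G := twVal P hS (diagCls τ α)
  have hslabm : Measurable (slab ψ) :=
    Measurable.ite ((measurableSet_le measurable_const (isHeightFlow_scale τ).measφ).inter
      (measurableSet_lt (isHeightFlow_scale τ).measφ measurable_const)) hψ.meas measurable_const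
  have hbm : Measurable fun p : Pt F S => blockW B p.1 :=
    (measurable_of_countable fun ν : FinPt F S => blockW B ν).comp measurable_fst
  have hb : Integrable (fun p => (slab ψ p * blockW B p.1) • G p) ptMeasure := by
    refine hP.2.mono ((hslabm.mul hbm).smul (measurable_twVal P hS _)).aestronglyMeasurable
      (Eventually.of_forall fun p => ?_)
    rw [norm_smul, norm_smul]
    refine mul_le_mul_of_nonneg_right ?_ (norm_nonneg _)
    rw [norm_mul, norm_mul]
    refine mul_le_mul_of_nonneg_left ?_ (norm_nonneg _)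
    rw [Real.norm_of_nonneg (blockW_nonneg B p.1), Real.norm_of_nonneg (axisLog_nonneg p)]
    exact blockW_le B p
  have hdec : ∀ p, (slab ψ p * axisLog p) • G p
      = (slab ψ p * (axisLog p - blockW B p.1)) • G p + (slab ψ p * blockW B p.1) • G p :=
          fun p => by
    rw [← add_smul]; congr 1; ring
  have ha : Integrable (fun p => (slab ψ p * (axisLog p - blockW B p.1)) • G p) ptMeasure :=
    (hP.2.sub hb).congr (Eventually.of_forall fun p => by
      change (slab ψ p * axisLog p) • G p - _ = _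
      rw [hdec p]; abel)
  have z : ∫ p, (slab ψ p * (axisLog p - blockW B p.1)) • G p ∂ptMeasure = 0 := by
    have := integral_block_rel P hS P rfl (c := 0) (W₀ := fun _ => 1) (by simpa using h0)
      (fun p => slab ψ p * (axisLog p - blockW B p.1))
      (fun μ ν h y => by simp only [slab_sameBlock hψ h y, axisLog_sub_blockW h y])
      (by simpa only [mul_one] using ha) ha
    simpa only [mul_one, zero_mul] using this
  change ∫ p, (slab ψ p * axisLog p) • G p ∂ptMeasure = _
  simp only [hdec]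
  rw [integral_add ha hb, z, zero_add,
    integral_block_rel P hS Q harch h (slab ψ) (fun μ ν h y => slab_sameBlock hψ h y) hb hQ.1, lowA]

end Fermat.LTG
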