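import Fermat.Agent.LTG.Hyp.Local
import Fermat.Agent.LTG.KapBound
import Fermat.Agent.LTG.EllUnfold
import Fermat.Agent.LT.HypHeight

/-!
# Heights under field automorphisms, high lines seen by a kernel, bounded diagonal classes

`exists_axes_radius` says only axes are high on a diagonal class, `exists_block_bound` bounds the
classes seen and `exists_low_bound` the low part.
-/

set_option autoImplicit false
open IsDedekindDomain NumberField MeasureTheory Filter Set
open scoped Classical Matrix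

namespace Fermat.LTG

open Fermat.LT

variable {F : Type*} [Field F] [NumberField F]

variable {S : Lev F}

/-- An automorphism carries local factors to those of the vector moved back. -/
lemma nloc_amap {τ : F ≃+* F} (hS : Stable τ S) {v u : Place F} (hu : mapPlace τ v = u)
    (x : Fin 2 → F) (a : Vert S v) : nloc u x (Vert.amap hS hu a) = nloc v (symVec τ x) a := by
  obtain ⟨g, rfl⟩ := QuotientGroup.mk_surjective a
  rw [Vert.amap_mk, nloc_mk, nloc_mk, nfin_mapGL hu]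

variable [IsTotallyComplex F]

/-- The height of a transported point. -/
theorem ht_amap {τ : F ≃+* F} (hS : Stable τ S) (u : Fin 2 → F) (p : Pt F S) :
    ht u (Pt.amap hS p) = ht (symVec τ u) p := by
  rw [ht, ht]
  congr 1
  · rw [← finprod_comp_equiv (mapPlace τ)]
    refine finprod_congr fun v => ?_
    obtain ⟨g, hg⟩ := QuotientGroup.mk_surjective (p.1.1 v)
    rw [show (Pt.amap hS p).1.1 (mapPlace τ v) = Vert.amap hS rfl (p.1.1 v) by
      rw [← hg, Vert.amap_mk]; exact FinPt.amap_apply hS p.1 rfl hg.symm, nloc_amap]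
  · exact prod_ninf_extH τ u p.2

/-! ### the low part -/

variable (F S) in
/-- No line is high. -/
def lowSet (ε : ℝ) : Set (Pt F S) := {p | ∀ u : Fin 2 → F, u ≠ 0 → ε ≤ ht u p}

omit [IsTotallyComplex F] in
/-- The set without high lines is invariant under the projective group. -/
lemma lowSet_smul (ε : ℝ) (γ : PG F) (p : Pt F S) : γ • p ∈ lowSet F S ε ↔ p ∈ lowSet F S ε := by
  suffices h : ∀ (g : GL (Fin 2) F) (q : Pt F S), q ∈ lowSet F S ε → g • q ∈ lowSet F S ε by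
    obtain ⟨g, rfl⟩ := QuotientGroup.mk_surjective γ
    rw [PG.mk_smul]
    exact ⟨fun hp => by simpa using h g⁻¹ _ hp, h g p⟩
  intro g q hq u hu
  rw [ht_smul hu]
  exact hq _ fun h => hu (Matrix.vecMul_injective_iff_isUnit.2 g.isUnit (by simpa using h))

omit [IsTotallyComplex F] in
/-- Heights are measurable on points. -/
lemma measurable_ht (u : Fin 2 → F) : Measurable (ht u : Pt F S → ℝ) := by
  refine measurable_from_prod_countable_right fun ν => ?_
  change Measurable fun y : InfinitePlace F → H3 =>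
    (∏ᶠ v, nloc v u (ν.1 v)) * ∏ w, ninf (embVec w u) (y w) ^ w.mult
  exact (continuous_const.mul (continuous_finsetProd _ fun w _ =>
    ((continuous_ninf (embVec w u)).comp (continuous_apply w)).pow _)).measurable

omit [IsTotallyComplex F] in
/-- The set without high lines is measurable. -/
lemma measurableSet_lowSet (ε : ℝ) : MeasurableSet (lowSet F S ε) := by
  have : lowSet F S ε = ⋂ u : {u : Fin 2 → F // u ≠ 0}, {p | ε ≤ ht u.1 p} := by
    ext p; simp [lowSet]
  rw [this]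
  exact MeasurableSet.iInter fun u => measurableSet_le measurable_const (measurable_ht _)

omit [IsTotallyComplex F] in
/-- The upper triangular matrices preserve the height of `∞`. -/
lemma ht_eInf_upMat_smul (a : Fˣ) (x : F) (p : Pt F S) :
    ht (eInf : Fin 2 → F) (upMat a x • p) = ht eInf p := by
  rw [ht_smul eInf_ne_zero, eInf_vecMul_upMat]

/-- **Points seen by the kernel have comparable heights at every line.** -/
theorem exists_ht_comparable_all (K : PKer F S) : ∃ κ : ℝ, 1 ≤ κ ∧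
    ∀ (u : Fin 2 → F), u ≠ 0 → ∀ p q : Pt F S, K.val p q ≠ 0 →
      ht u q ≤ κ * ht u p ∧ ht u p ≤ κ * ht u q := by
  obtain ⟨Ω, hΩ⟩ := exists_borel_reps (F := F) (S := S)
  obtain ⟨κ, hκ1, hκ⟩ := exists_ht_comparable K Ω
  refine ⟨κ, hκ1, fun u hu p q hne => ?_⟩
  obtain ⟨g, rfl⟩ := exists_eInf_vecMul hu
  simp only [← ht_smul eInf_ne_zero g]
  rw [← K.val_smul g] at hne
  generalize g • p = p' at hne ⊢
  generalize g • q = q' at hne ⊢
  obtain ⟨a, x, ω₀, hω₀, hω⟩ := hΩ p'.1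
  rw [← K.val_smul (upMat a x)⁻¹] at hne
  have h := hκ _ _ (by
    show ((upMat a x)⁻¹ • p').1 ∈ Ω
    rwa [Pt.smul_fst, ← hω, inv_smul_smul]) hne
  rwa [upMat_inv, ht_eInf_upMat_smul, ht_eInf_upMat_smul] at h

variable {τ : F ≃+* F} (hS : Stable τ S)

/-- **On the low part the whole kernel sum is bounded.** -/
theorem exists_low_bound (K : PKer F S) {ε : ℝ} (hε : 0 < ε) :
    ∃ C : ℝ, ∀ p ∈ lowSet F S ε, ∑' γ : TwPG τ, ‖twVal K hS γ p‖ₑ ≤ ENNReal.ofReal C := by
  obtain ⟨Ω, R₀, c, hc, hΩ⟩ := exists_siegel (F := F) (S := S)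
  set R := max R₀ 1
  obtain ⟨B, hB0, hB⟩ := exists_val_bound K Ω
  set Φ : ℝ := ∑ ν ∈ Ω, phiInf ν
  set A : ℝ := (R ^ 2 + 1 + (R * (1 + Φ / ε) + c) ^ 2) / (2 * c)
  set Γ : Finset (PG F) := Ω.biUnion fun ν => (K.finite_seen ν (FinPt.amap hS ν) A A).toFinset
  refine ⟨Γ.card * B, fun p₀ hp₀ => ?_⟩
  obtain ⟨g₁, hg₁⟩ := hΩ p₀
  rw [← (MulAction.toPerm ((g₁ : PG F)⁻¹) : Equiv.Perm (TwPG τ)).tsum_eq]
  have e : ∀ γ, twVal K hS ((g₁ : PG F)⁻¹ • γ) p₀ = twVal K hS γ (g₁ • p₀) := fun γ => by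
    rw [← twVal_smul K hS (g₁ : PG F), smul_inv_smul, PG.mk_smul]
  simp only [MulAction.toPerm_apply, e]
  have hε' : ε ≤ ht (eInf : Fin 2 → F) (g₁ • p₀) :=
    ((lowSet_smul ε (g₁ : PG F) p₀).2 hp₀) _ eInf_ne_zero
  generalize g₁ • p₀ = p at hg₁ hε' ⊢
  obtain ⟨hp1, hp2, hp3⟩ := hg₁
  have hlow : ∀ w, coshd ((1 : GL (Fin 2) ℂ) : H3) (p.2 w) ≤ A :=
    coshd_base_le_of_height (le_max_right _ _) (le_max_left _ _) hc hε
      (Finset.single_le_sum (f := fun ν => phiInf ν) (fun ν _ => (phiInf_pos ν).le) hp1)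
      (Finset.sum_nonneg fun ν _ => (phiInf_pos ν).le)
      (fun w => ⟨(hp2 w).1.trans (le_max_left _ _), (hp2 w).2⟩) hp3 (ht_eInf p ▸ hε')
  refine tsum_enorm_le_card_mul (T := Γ.image (TwPG.of τ)) Finset.card_image_le
      (fun γ => hB _ _ hp1) fun γ hne =>
    Finset.mem_image.2 ⟨γ.cls, Finset.mem_biUnion.2 ⟨p.1, hp1, (Set.Finite.mem_toFinset _).2
      ⟨p.2, (Pt.amap hS p).2, hlow, fun w => ?_, hne⟩⟩, rfl⟩
  change coshd _ (extH p.2 _) ≤ A
  rw [(coord_extH p.2 _).2]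
  exact hlow _

/-- **Only the axes can be high on the support of a diagonal class.** -/
theorem exists_axes_radius (K : PKer F S) :
    ∃ ε₀ : ℝ, 0 < ε₀ ∧ ∀ (α : Fˣ), (∀ x : F, τ x * (α : F) = x → x = 0) →
    ∀ p : Pt F S, twVal K hS (TwPG.of τ (upMat α (0 : F) : PG F)) p ≠ 0 →
    ∀ ε ≤ ε₀, (p ∈ lowSet F S ε ↔ ε ≤ ht (eInf : Fin 2 → F) p ∧ ε ≤ ht ![1, 0] p) := by
  obtain ⟨κ, hκ1, hκ⟩ := exists_ht_comparable_all K
  refine ⟨1 / (κ + 1), by positivity, fun α hα p hp ε hε =>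
    ⟨fun h => ⟨h _ eInf_ne_zero, h _ fun h0 => by simpa using congrFun h0 0⟩, fun h u hu => ?_⟩⟩
  rw [twVal, TwPG.cls_of, PG.mk_smul] at hp
  refine le_height_of_axes (H := fun u => ht u p) hκ1 hε hα (fun hu => ht_pos hu p) (fun hu c =>
    ht_smul_vec hu c p) (fun hu hu' hd => one_le_ht_mul hu hu' hd p) (fun {v} hv => ?_) h.1 h.2 hu
  have h1 := (hκ v hv p _ hp).1
  rwa [ht_smul hv, ht_amap] at h1

/-! ### bounded classes -/

omit [IsTotallyComplex F] in
/-- A kernel changes the local height boundedly. -/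
lemma exists_nloc_le {v : Place F} (k : LKer S v) : ∃ C : ℝ, 1 ≤ C ∧ (k = LKer.one S v → C = 1) ∧
    ∀ a b : Vert S v, k a b ≠ 0 → nloc v (eInf : Fin 2 → F) b ≤ C * nloc v eInf a ∧
      nloc v (eInf : Fin 2 → F) a ≤ C * nloc v eInf b := by
  by_cases hk : k = LKer.one S v
  · refine ⟨1, le_rfl, fun _ => rfl, fun a b h => ?_⟩
    rw [hk, LKer.one_apply, ne_eq, ite_eq_right_iff, Classical.not_imp] at h
    rw [h.1, one_mul]; exact ⟨le_rfl, le_rfl⟩
  obtain ⟨D, hD⟩ := k.exists_lvl_bound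
  exact ⟨(pnorm v : ℝ) ^ D,
    one_le_pow₀ (by exact_mod_cast (HeightOneSpectrum.one_lt_absNorm v).le),
    fun h => absurd h hk, fun a b h => nfin_le_of_lvl (hD a b h)⟩

/-- **The classes seen are bounded at the moving block.** -/
theorem exists_block_bound (K₀ : PKer F S) (B : Finset (Place F))
    (hB : ∀ w, mapPlace τ w ∈ B ↔ w ∈ B) :
    ∃ C : ℝ, 1 ≤ C ∧ ∀ K : PKer F S, (∀ w ∉ B, K.loc w = K₀.loc w) → K.arch = K₀.arch →
      ∀ (α : Fˣ) (p : Pt F S), twVal K hS (TwPG.of τ (upMat α (0 : F) : PG F)) p ≠ 0 →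
      ∏ w ∈ B, vabs w (α : F) ≤ C ∧ 1 ≤ C * ∏ w ∈ B, vabs w (α : F) := by
  choose c hc1 hcone hc using fun v : Place F => exists_nloc_le (K₀.loc v)
  set E := (eventually_cofinite.1 K₀.ae_one).toFinset
  refine ⟨(∏ v ∈ E, c v) * (1 + 2 * |K₀.range|) ^ (2 * Fintype.card (InfinitePlace F)),
    one_le_mul_of_one_le_of_one_le (Finset.one_le_prod fun v _ => hc1 v)
      (one_le_pow₀ (le_add_of_nonneg_right (by positivity))), fun K hloc harch α p hne => ?_⟩
  rw [twVal, TwPG.cls_of, PG.mk_smul, PKer.val, mul_ne_zero_iff] at hne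
  obtain ⟨hfin, hinf⟩ := hne
  set q : Pt F S := upMat α (0 : F) • Pt.amap hS p with hqdef
  refine block_bound_gen hB hc1 (fun v hv => hcone v (by simpa [E] using hv))
    (f := fun w => nloc w (eInf : Fin 2 → F) (p.1.1 w)) (g := fun w =>
      nloc w (eInf : Fin 2 → F) (q.1.1 w))
    (fun w => nfin_pos w eInf_ne_zero _) (fun w => nfin_pos w eInf_ne_zero _)
    (eventually_cofinite.1 (eventually_nloc_eq_one eInf_ne_zero p.1))
    (eventually_cofinite.1 (eventually_nloc_eq_one eInf_ne_zero q.1))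
    (fun w => ?_) (fun w hw => ?_) (x := p.2) (y := q.2) (fun w => ?_) ?_
  · change nloc w _ ((upMat α (0 : F) • Pt.amap hS p).1.1 w) = _
    rw [Pt.smul_fst, FinPt.smul_apply, nloc_eInf_smul]
    congr 1
    change nloc w _ ((FinPt.amap hS p.1).1 w) = _
    obtain ⟨h, hh⟩ := QuotientGroup.mk_surjective (p.1.1 ((mapPlace τ).symm w))
    rw [FinPt.amap_apply hS p.1 (Equiv.apply_symm_apply _ w) hh.symm,
      ← Vert.amap_mk hS (Equiv.apply_symm_apply _ w), hh, nloc_amap, symVec_eInf]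
  · have h := (K.fin_ne_zero.1 hfin) w
    rw [hloc w hw] at h
    exact hc w _ _ h
  · have h := not_lt.1 fun hlt => hinf (K.inf_eq_zero (x := p.2) (y := q.2) (w := w) hlt)
    rwa [PKer.range, harch] at h
  · change ht (eInf : Fin 2 → F) q = ht eInf p
    rw [hqdef, ht_eInf_upMat_smul, ht_amap, symVec_eInf]

end Fermat.LTG
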