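import Fermat.Agent.LTG.Height
import Fermat.Agent.LT.HypLocal

/-!
# Cosets of one height at a place

`fibre_translate`: the cosets of any height are a diagonal translate of those of height one.
-/

set_option autoImplicit false
open Filter Set
open scoped Matrix

namespace Fermat.LTG

open Fermat.LT

variable {F : Type*} [Field F] [NumberField F] {S : Lev F} {v : Place F}

/-- An upper triangular translation divides the local height at `∞` by the absolute value of `a`. -/
lemma nloc_eInf_smul (a : Fˣ) (x : F) (y : Vert S v) :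
    nloc v (eInf : Fin 2 → F) (upMat a x • y) = nloc v (eInf : Fin 2 → F) y / vabs v (a : F) := by
  obtain ⟨g, rfl⟩ := QuotientGroup.mk_surjective y
  rw [MulAction.Quotient.smul_coe, nloc_mk, nloc_mk, smul_eq_mul, nfin_mul_left, eInf_vecMul_upMat]
  simp [Matrix.det_fin_two]

/-- The base coset has height one at `∞`. -/
lemma nloc_eInf_base :
    nloc v (eInf : Fin 2 → F) ((1 : GL (Fin 2) F) : Vert S v) = 1 := by
  rw [nloc_mk, ← upMat_one, nfin_eInf_upMat]
  simp

/-- The cosets of any height are a diagonal translate of those of height one, compatibly with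
kernels. -/
lemma fibre_translate (k : LKer S v) (ξ : Fˣ) (d : ℝ) (g : GL (Fin 2) F)
    (hd : nloc v (eInf : Fin 2 → F) (g : Vert S v) = d) :
    ∃ α : Fˣ, ∃ e : {a : Vert S v // nloc v (eInf : Fin 2 → F) a = 1} ≃
      {a : Vert S v // nloc v (eInf : Fin 2 → F) a = d}, (∀ a, (e a).1 = upMat α 0 • a.1) ∧
      ∀ a, k (e a).1 (upMat ξ 0 • (e a).1) = k a.1 (upMat ξ 0 • a.1) := by
  obtain ⟨a₀, ha⟩ := exists_vabs_inv_eq_nfin (v := v) g
  exact ⟨a₀, fibre_translate_gen _ (fun a y => nloc_eInf_smul a 0 y) k k.invariant ξ a₀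
    (ha.trans (by rw [← hd, nloc_mk]))⟩

end Fermat.LTG
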