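import Fermat.Agent.LTG.Hyp.Block
import Fermat.Agent.LT.HypSplit

/-!
# Sums over the heights at a place and at a cycle of three places

At a place outside the level the sum of a spherical kernel is the scaled constant term; weighted by
the logarithm of the two axis heights it is a function of the same two data.
-/

set_option autoImplicit false
open IsDedekindDomain NumberField Filter Set
open scoped Classical Matrix

namespace Fermat.LTG

open Fermat.LT

/-- The sum of `g` times a spherical kernel over a height. -/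
noncomputable def sphSum (q : ℕ) (p : Polynomial ℂ) (m : ℕ) (g : ℕ → ℂ) : ℂ :=
  g 0 * kern q p m + ((q : ℂ) - 1) *
    ∑ r ∈ Finset.range (p.natDegree + 1), (q : ℂ) ^ r * (g (r + 1) * kern q p (m + 2 * (r + 1)))

/-- The unweighted sum is the scaled constant term. -/
lemma sphSum_one (q : ℕ) (p : Polynomial ℂ) (m : ℕ) :
    sphSum q p m (fun _ => 1) = ctil q (kern q p) m := by
  rw [ctil, gsum_eq_sum q (kern_eq_zero q p) m (p.natDegree + 1) (by omega), sphSum]
  simp only [one_mul]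
  congr 1

/-- The values of the logarithm of the two axis heights along a height. -/
noncomputable def wVal (q j : ℕ) : ℂ := (Real.log (((q : ℝ) ^ j) ^ 2) : ℝ)

variable {F : Type*} [Field F] [NumberField F] {S : Lev F} {v : Place F}

/-- The logarithm of the product of the two axis heights at a place. -/
noncomputable def wLog (a : Vert S v) : ℝ :=
  Real.log (nloc v (eInf : Fin 2 → F) a * nloc v ![1, 0] a)

/-- A diagonal matrix scales the height of `0`. -/
lemma nloc_zero_smul (c : Fˣ) (y : Vert S v) :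
    nloc v ![1, 0] (upMat c (0 : F) • y) = vabs v (c : F) * nloc v ![1, 0] y := by
  obtain ⟨g, rfl⟩ := QuotientGroup.mk_surjective y
  rw [MulAction.Quotient.smul_coe, nloc_mk, nloc_mk, smul_eq_mul, nfin_mul_left, nfin, nfin]
  have e : (![1, 0] : Fin 2 → F) ᵥ* (upMat c (0 : F) : Matrix (Fin 2) (Fin 2) F) =
      (c : F) • ![1, 0] := by
    funext i; fin_cases i <;> simp [Matrix.vecMul, dotProduct]
  have e' : (upMat c (0 : F) : Matrix (Fin 2) (Fin 2) F).det = (c : F) := by
    simp [Matrix.det_fin_two]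
  rw [e, e', Matrix.smul_vecMul]
  have hc : vabs v (c : F) ≠ 0 := ((vabs v).pos c.ne_zero).ne'
  simp only [Pi.smul_apply, smul_eq_mul, map_mul,
    ← mul_max_of_nonneg _ _ (apply_nonneg (vabs v) (c : F)), mul_pow]
  field_simp

/-- A diagonal matrix preserves the product of the two axis heights. -/
lemma wLog_smul (c : Fˣ) (y : Vert S v) : wLog (upMat c (0 : F) • y) = wLog y := by
  have hc : vabs v (c : F) ≠ 0 := ((vabs v).pos c.ne_zero).ne'
  rw [wLog, wLog, nloc_eInf_smul, nloc_zero_smul]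
  congr 1
  field_simp

/-- The logarithm of the axis heights at a unipotent translate of the base. -/
lemma wLog_unip {x : F} {j : ℕ} (hx : v.valuation F x ≤ WithZero.exp (j : ℤ))
    (hj : j = 0 ∨ v.valuation F x = WithZero.exp (j : ℤ)) :
    (wLog (upMat 1 x • ((1 : GL (Fin 2) F) : Vert S v)) : ℂ) = wVal (pnorm v) j := by
  rw [wVal, wLog, nloc_eInf_smul, nloc_eInf_base, MulAction.Quotient.smul_coe, nloc_mk, smul_eq_mul,
    mul_one, nfin]
  have e : (![1, 0] : Fin 2 → F) ᵥ* (upMat 1 x : Matrix (Fin 2) (Fin 2) F) = ![1, x] := by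
    funext i; fin_cases i <;> simp [Matrix.vecMul, dotProduct]
  have e' : (upMat 1 x : Matrix (Fin 2) (Fin 2) F).det = 1 := by simp [Matrix.det_fin_two]
  rw [e, e']
  have hq : (1 : ℝ) ≤ pnorm v := by exact_mod_cast (HeightOneSpectrum.one_lt_absNorm v).le
  have hmax : max (1 : ℝ) (vabs v x) = (pnorm v : ℝ) ^ j := by
    rcases hj with rfl | hj
    · rw [pow_zero, max_eq_left]
      exact (vabs_le_one_iff v x).2 (by simpa using hx)
    · have hx0 : x ≠ 0 := fun h => by
        rw [h, map_zero] at hj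
        exact WithZero.exp_ne_zero hj.symm
      have ho : -ord (v.valuation F) x = (j : ℤ) := by
        have := v_eq_exp (v.valuation F) hx0
        rw [hj, WithZero.exp_inj] at this
        omega
      rw [vabs_eq v hx0, ho, zpow_natCast, max_eq_right (one_le_pow₀ hq)]
  simp [hmax]

/-- **A spherical kernel summed with a weight over the height one.** -/
theorem tsum_sph_weight_one (hv : v ∉ S) (p : Polynomial ℂ) {ξ : Fˣ} {m : ℕ}
    (hm : |ord (v.valuation F) (ξ : F)| = (m : ℤ)) (hm0 : m ≠ 0) (W : Vert S v → ℂ) (g : ℕ → ℂ)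
    (hW : ∀ (x : F) (j : ℕ), v.valuation F x ≤ WithZero.exp (j : ℤ) →
      (j = 0 ∨ v.valuation F x = WithZero.exp (j : ℤ)) →
      W (upMat 1 x • ((1 : GL (Fin 2) F) : Vert S v)) = g j) :
    ∑' a : {a : Vert S v // nloc v (eInf : Fin 2 → F) a = 1},
      W a.1 * sphKer hv p a.1 (upMat ξ 0 • a.1)
      = sphSum (pnorm v) p m g := by
  -- off the level the cosets are the vertices
  let e₀ : Vert S v ≃ LT.Vert (∅ : Set (Place F)) v := Equiv.ofBijective Vert.down
    ⟨Vert.down_injective hv, fun b => ⟨(b.out : Vert S v), QuotientGroup.out_eq' b⟩⟩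
  have hn : ∀ a, LT.nloc v (eInf : Fin 2 → F) (e₀ a) = nloc v (eInf : Fin 2 → F) a := fun a => by
    obtain ⟨g, rfl⟩ := QuotientGroup.mk_surjective a
    exact (LT.nloc_mk _ _ g).trans (nloc_mk _ _ g).symm
  rw [sphSum, ← LT.tsum_sph_weight_fibre_one (Set.notMem_empty v) p hm hm0
      (fun b => W (e₀.symm b)) g fun x j hx hj => (congrArg W (e₀.symm_apply_eq.2 rfl)).trans
        (hW x j hx hj),
    ← (e₀.subtypeEquiv (p := fun a => nloc v (eInf : Fin 2 → F) a = 1)
      (q := fun b => LT.nloc v (eInf : Fin 2 → F) b = 1) fun a => by rw [hn]).tsum_eq]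
  refine tsum_congr fun a => ?_
  obtain ⟨⟨g₀⟩, ha⟩ := a
  change W _ * sphKer hv p (g₀ : Vert S v) ((upMat ξ 0 * g₀ : GL (Fin 2) F) : Vert S v)
    = W (e₀.symm (e₀ (g₀ : Vert S v))) * LT.sphKer (Set.notMem_empty v) p
      (g₀ : LT.Vert (∅ : Set (Place F)) v) ((upMat ξ 0 • (g₀ : LT.Vert (∅ : Set (Place F)) v)))
  rw [e₀.symm_apply_apply, sphKer_apply, LT.sphKer_apply, MulAction.Quotient.smul_coe, vd_mk,
    LT.vd_mk, smul_eq_mul]
  rfl

/-- **A spherical kernel summed over any height**, plainly and with the logarithm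
of the axis heights. -/
theorem tsum_sph_pair (hv : v ∉ S) (p : Polynomial ℂ) {ξ : Fˣ} {m : ℕ}
    (hm : |ord (v.valuation F) (ξ : F)| = (m : ℤ)) (hm0 : m ≠ 0) (d : ℝ) :
    let e : ℂ := if ∃ a : Vert S v, nloc v (eInf : Fin 2 → F) a = d then 1 else 0
    ∑' a : {a : Vert S v // nloc v (eInf : Fin 2 → F) a = d}, sphKer hv p a.1 (upMat ξ 0 • a.1)
        = ctil (pnorm v) (kern (pnorm v) p) m * e ∧
    ∑' a : {a : Vert S v // nloc v (eInf : Fin 2 → F) a = d},
        (wLog a.1 : ℂ) * sphKer hv p a.1 (upMat ξ 0 • a.1)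
        = sphSum (pnorm v) p m (wVal (pnorm v)) * e := by
  intro e
  by_cases hne : ∃ a : Vert S v, nloc v (eInf : Fin 2 → F) a = d
  · obtain ⟨a₀, ha₀⟩ := id hne
    obtain ⟨g, rfl⟩ := QuotientGroup.mk_surjective a₀
    obtain ⟨β, eq, hβ, hk⟩ := fibre_translate (sphKer hv p) ξ d g ha₀
    simp only [e, if_pos hne, mul_one]
    rw [← eq.tsum_eq, ← eq.tsum_eq]
    simp only [hk, fun a => show wLog (eq a).1 = wLog a.1 by rw [hβ, wLog_smul]]
    refine ⟨?_, tsum_sph_weight_one hv p hm hm0 (fun a => (wLog a : ℂ)) _ fun x j hx hj =>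
      wLog_unip hx hj⟩
    rw [← sphSum_one, ← tsum_sph_weight_one hv p hm hm0 (fun _ => 1) (fun _ => 1)
      fun _ _ _ _ => rfl]
    simp
  · have : IsEmpty {a : Vert S v // nloc v (eInf : Fin 2 → F) a = d} := ⟨fun a => hne ⟨a.1, a.2⟩⟩
    simp [e, if_neg hne]

/-! ### the blocks -/

variable [IsTotallyComplex F] {τ : F ≃+* F} (hS : Stable τ S)

/-- The factor away from a block. -/
noncomputable def outB (P : PKer F S) (B : Finset (Place F)) (δ : GL (Fin 2) F) (μ : FinPt F S) :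
    ℂ :=
  ∏ᶠ u, if u ∈ B then 1 else P.loc u (μ.1 u) ((δ • FinPt.amap hS μ).1 u)

omit [IsTotallyComplex F] in
/-- The twisted product splits into the factors at a block and away from it. -/
lemma fin_block (P : PKer F S) (B : Finset (Place F)) (δ : GL (Fin 2) F) (μ : FinPt F S) :
    P.fin μ (δ • FinPt.amap hS μ)
      = (∏ u ∈ B, P.loc u (μ.1 u) ((δ • FinPt.amap hS μ).1 u)) * outB hS P B δ μ := by
  set f : Place F → ℂ := fun u => P.loc u (μ.1 u) ((δ • FinPt.amap hS μ).1 u)
  have hf : (Function.mulSupport f).Finite := P.mulSupport_finite μ _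
  have h1 : (Function.mulSupport fun u => if u ∈ B then f u else 1) ⊆ ↑B := fun u hu => by
    by_contra h
    exact hu (if_neg h)
  change ∏ᶠ u, f u = _
  rw [finprod_congr (g := fun u => (if u ∈ B then f u else 1) * (if u ∈ B then 1 else f u))
      fun u => by split_ifs <;> simp,
    finprod_mul_distrib (B.finite_toSet.subset h1) (hf.subset fun u hu h => hu (by
      change (if u ∈ B then (1 : ℂ) else f u) = 1
      split_ifs <;> [rfl; exact h])),
    finprod_eq_prod_of_mulSupport_subset _ h1]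
  congr 1
  exact Finset.prod_congr rfl fun u hu => if_pos hu

omit [IsTotallyComplex F] in
/-- The factor away from a block depends only on what is away from it. -/
lemma outB_congr {P P' : PKer F S} {B : Finset (Place F)} (hB : ∀ w, mapPlace τ w ∈ B ↔ w ∈ B)
    (hP : ∀ u ∉ B, P.loc u = P'.loc u) {δ : GL (Fin 2) F} {μ ν : FinPt F S}
    (h : ∀ u ∉ B, μ.1 u = ν.1 u) :
    outB hS P B δ μ = outB hS P' B δ ν := by
  refine finprod_congr fun u => ?_
  by_cases hu : u ∈ B
  · rw [if_pos hu, if_pos hu]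
  rw [if_neg hu, if_neg hu, hP u hu, h u hu]
  congr 1
  rw [FinPt.smul_apply, FinPt.smul_apply]
  congr 1
  exact congrArg (Vert.amap hS ((mapPlace τ).apply_symm_apply u))
    (h _ fun h' => hu ((symm_mem_iff hB u).1 h'))

omit [IsTotallyComplex F] in
/-- The logarithm over a block is the sum of the local ones. -/
lemma blockW_eq_sum (B : Finset (Place F)) (μ : FinPt F S) : blockW B μ = ∑ w ∈ B, wLog (μ.1 w) :=
  Real.log_prod fun w _ => (zero_lt_one.trans_le (one_le_nloc_mul w _)).ne'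

omit [IsTotallyComplex F] in
/-- **A fixed place.** At a place outside `S` the two block sums of a spherical kernel are its
scaled constant term and weighted sum `sphSum`, times a common factor. -/
theorem blockSum_one (hS : Stable (RingEquiv.refl F) S) (P₀ : PKer F S) (hv : v ∉ S) {ξ : Fˣ}
    {m : ℕ} (hm : |ord (v.valuation F) (ξ : F)| = (m : ℤ)) (hm0 : m ≠ 0) (ν : FinPt F S) :
    ∃ h : ℂ, ∀ (P : PKer F S) (p : Polynomial ℂ), P.loc v = sphKer hv p →
      (∀ u ≠ v, P.loc u = P₀.loc u) →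
      blockSum P hS ξ {v} (fun _ => 1) ν = ctil (pnorm v) (kern (pnorm v) p) m * h ∧
      blockSum P hS ξ {v} (blockW {v}) ν = sphSum (pnorm v) p m (wVal (pnorm v)) * h := by
  set d := nloc v (eInf : Fin 2 → F) (ν.1 v)
  set δ := upMat ξ (0 : F)
  refine ⟨(if ∃ a : Vert S v, nloc v (eInf : Fin 2 → F) a = d then 1 else 0) * outB hS P₀ {v} δ ν,
    fun P p hp hP => ?_⟩
  have hid : ∀ μ : FinPt F S, FinPt.amap hS μ = μ := fun μ =>
    congrArg Prod.fst (Pt.amap_refl hS (μ, fun _ => ((1 : GL (Fin 2) ℂ) : H3)))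
  let e : {μ : FinPt F S // SameBlock {v} μ ν} ≃
      {a : Vert S v // nloc v (eInf : Fin 2 → F) a = d} :=
    { toFun := fun μ => ⟨μ.1.1 v, μ.2.2 v (Finset.mem_singleton_self v)⟩
      invFun := fun a => ⟨ν.set v a.1, fun w hw => FinPt.set_of_ne ν (by simpa using hw) _,
          fun w hw => by
        obtain rfl := Finset.mem_singleton.1 hw
        rw [FinPt.set_self]; exact a.2⟩
      left_inv := fun μ => Subtype.ext (Subtype.ext (funext fun w => by
        by_cases hw : w = v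
        · subst hw; exact FinPt.set_self _ _ _
        · exact (FinPt.set_of_ne ν hw _).trans (μ.2.1 w (by simpa using hw)).symm))
      right_inv := fun a => Subtype.ext (FinPt.set_self _ _ _) }
  have hfin : ∀ μ : {μ : FinPt F S // SameBlock {v} μ ν}, P.fin μ.1 (δ • FinPt.amap hS μ.1)
      = sphKer hv p (e μ).1 (δ • (e μ).1) * outB hS P₀ {v} δ ν := fun μ => by
    rw [fin_block hS P {v}, Finset.prod_singleton, hp, hid,
      outB_congr hS (P' := P₀) (ν := ν) (fun w => by
        rw [show mapPlace (RingEquiv.refl F) w = w from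
          HeightOneSpectrum.ext (Ideal.ext fun a => mapPlace_asIdeal _ w a)])
        (fun u hu => hP u (by simpa using hu)) μ.2.1]
    rfl
  obtain ⟨h1, h2⟩ := tsum_sph_pair hv p hm hm0 d
  constructor
  · rw [← mul_assoc, ← h1, ← tsum_mul_right, blockSum, ← e.tsum_eq]
    exact tsum_congr fun μ => by rw [hfin μ, Complex.ofReal_one, one_mul]
  · rw [← mul_assoc, ← h2, ← tsum_mul_right, blockSum, ← e.tsum_eq]
    exact tsum_congr fun μ => by
      rw [hfin μ, blockW_eq_sum, Finset.sum_singleton, mul_assoc]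
      rfl

omit [NumberField F] [IsTotallyComplex F] in
/-- An automorphism of order three acts on matrices with order three. -/
lemma mapGL_three (h3 : ∀ x, τ (τ (τ x)) = x) (g : GL (Fin 2) F) :
    mapGL τ (mapGL τ (mapGL τ g)) = g :=
  Units.ext (Matrix.ext fun _ _ => h3 _)

omit [IsTotallyComplex F] in
/-- The local logarithm commutes with automorphisms. -/
lemma wLog_amap {w u : Place F} (hu : mapPlace τ w = u) (a : Vert S w) :
    wLog (Vert.amap hS hu a) = wLog a := by
  have : symVec τ (![1, 0] : Fin 2 → F) = ![1, 0] := by funext i; fin_cases i <;> simp [symVec]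
  rw [wLog, wLog, nloc_amap, nloc_amap, symVec_eInf, this]

omit [NumberField F] [IsTotallyComplex F] in
/-- A cycle of places is stable under the automorphism. -/
lemma mapPlace_mem_cycle_iff {w0 w1 w2 : Place F} (h01 : mapPlace τ w0 = w1)
    (h12 : mapPlace τ w1 = w2) (h20 : mapPlace τ w2 = w0) (w : Place F) :
    mapPlace τ w ∈ ({w0, w1, w2} : Finset (Place F)) ↔ w ∈ ({w0, w1, w2} : Finset (Place F)) := by
  simp only [Finset.mem_insert, Finset.mem_singleton]
  constructor
  · rintro (h | h | h)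
    · exact Or.inr (Or.inr ((mapPlace τ).injective (h.trans h20.symm)))
    · exact Or.inl ((mapPlace τ).injective (h.trans h01.symm))
    · exact Or.inr (Or.inl ((mapPlace τ).injective (h.trans h12.symm)))
  · rintro (rfl | rfl | rfl)
    exacts [Or.inr (Or.inl h01), Or.inr (Or.inr h12), Or.inl h20]

omit [IsTotallyComplex F] in
/-- Replacing the components at three places by ones of the same heights stays in the block. -/
lemma sameBlock_set_three {w0 w1 w2 : Place F} (n01 : w0 ≠ w1) (n02 : w0 ≠ w2) (n12 : w1 ≠ w2)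
    (ν : FinPt F S) {a : Vert S w0} {b : Vert S w1} {c : Vert S w2}
    (ha : nloc w0 (eInf : Fin 2 → F) a = nloc w0 (eInf : Fin 2 → F) (ν.1 w0))
    (hb : nloc w1 (eInf : Fin 2 → F) b = nloc w1 (eInf : Fin 2 → F) (ν.1 w1))
    (hc : nloc w2 (eInf : Fin 2 → F) c = nloc w2 (eInf : Fin 2 → F) (ν.1 w2)) :
    SameBlock {w0, w1, w2} (((ν.set w0 a).set w1 b).set w2 c) ν := by
  refine ⟨fun u hu => ?_, fun u hu => ?_⟩
  · simp only [Finset.mem_insert, Finset.mem_singleton, not_or] at hu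
    rw [FinPt.set_of_ne _ hu.2.2, FinPt.set_of_ne _ hu.2.1, FinPt.set_of_ne _ hu.1]
  · simp only [Finset.mem_insert, Finset.mem_singleton] at hu
    rcases hu with rfl | rfl | rfl
    · rw [FinPt.set_of_ne _ n02, FinPt.set_of_ne _ n01, FinPt.set_self, ha]
    · rw [FinPt.set_of_ne _ n12, FinPt.set_self, hb]
    · rw [FinPt.set_self, hc]

omit [IsTotallyComplex F] in
/-- A sum over a block of three places supported on chains reduces to one over the first place. -/
lemma tsum_sameBlock_three {w0 w1 w2 : Place F} (n01 : w0 ≠ w1) (n02 : w0 ≠ w2) (n12 : w1 ≠ w2)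
    (ν : FinPt F S) (z1 : Vert S w0 → Vert S w1) (z2 : Vert S w1 → Vert S w2)
    (hz1 : ∀ a, nloc w0 (eInf : Fin 2 → F) a = nloc w0 (eInf : Fin 2 → F) (ν.1 w0) →
      nloc w1 (eInf : Fin 2 → F) (z1 a) = nloc w1 (eInf : Fin 2 → F) (ν.1 w1))
    (hz2 : ∀ b, nloc w1 (eInf : Fin 2 → F) b = nloc w1 (eInf : Fin 2 → F) (ν.1 w1) →
      nloc w2 (eInf : Fin 2 → F) (z2 b) = nloc w2 (eInf : Fin 2 → F) (ν.1 w2))
    (f : FinPt F S → ℂ) (hf : ∀ μ, SameBlock {w0, w1, w2} μ ν → f μ ≠ 0 →
      μ.1 w1 = z1 (μ.1 w0) ∧ μ.1 w2 = z2 (μ.1 w1)) :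
    ∑' μ : {μ : FinPt F S // SameBlock {w0, w1, w2} μ ν}, f μ.1
      = ∑' a : {a : Vert S w0 //
            nloc w0 (eInf : Fin 2 → F) a = nloc w0 (eInf : Fin 2 → F) (ν.1 w0)},
          f (((ν.set w0 a.1).set w1 (z1 a.1)).set w2 (z2 (z1 a.1))) := by
  let glue : {a : Vert S w0 // nloc w0 (eInf : Fin 2 → F) a = nloc w0 (eInf : Fin 2 → F) (ν.1 w0)} →
      {μ : FinPt F S // SameBlock {w0, w1, w2} μ ν} := fun a =>
    ⟨_, sameBlock_set_three n01 n02 n12 ν a.2 (hz1 _ a.2) (hz2 _ (hz1 _ a.2))⟩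
  have g0 : ∀ a, (glue a).1.1 w0 = a.1 := fun a => by
    rw [FinPt.set_of_ne _ n02, FinPt.set_of_ne _ n01, FinPt.set_self]
  refine (Function.Injective.tsum_eq (g := glue) (f := fun μ => f μ.1)
    (fun a b h => Subtype.ext (by rw [← g0 a, ← g0 b, h])) fun μ hμ => ?_).symm
  obtain ⟨e1, e2⟩ := hf μ.1 μ.2 hμ
  refine ⟨⟨μ.1.1 w0, μ.2.2 w0 (by simp)⟩, Subtype.ext (Subtype.ext (funext fun u => ?_))⟩
  change (((ν.set w0 (μ.1.1 w0)).set w1 (z1 (μ.1.1 w0))).set w2 (z2 (z1 (μ.1.1 w0)))).1 u = _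
  by_cases h2 : u = w2
  · subst h2; rw [FinPt.set_self, ← e1, e2]
  rw [FinPt.set_of_ne _ h2]
  by_cases h1 : u = w1
  · subst h1; rw [FinPt.set_self, e1]
  rw [FinPt.set_of_ne _ h1]
  by_cases h0 : u = w0
  · subst h0; rw [FinPt.set_self]
  rw [FinPt.set_of_ne _ h0, μ.2.1 u (by simp [h0, h1, h2])]

omit [IsTotallyComplex F] in
/-- **A cycle of three places.** At a cycle of three places the two block sums of a spherical kernel
at one of them are `ctil` and three times `sphSum`, times a common factor. -/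
theorem blockSum_three (P₀ : PKer F S) (h3 : ∀ x, τ (τ (τ x)) = x) {w0 w1 w2 : Place F}
    (h01 : mapPlace τ w0 = w1) (h12 : mapPlace τ w1 = w2) (h20 : mapPlace τ w2 = w0)
    (n01 : w0 ≠ w1) (n02 : w0 ≠ w2) (n12 : w1 ≠ w2) (hv : w0 ∉ S) {α : Fˣ} {m : ℕ}
    (hm : |ord (w0.valuation F) ((α : F) * τ (α : F) * τ (τ (α : F)))| = (m : ℤ)) (hm0 : m ≠ 0)
    (ν : FinPt F S) :
    ∃ h : ℂ, ∀ (P : PKer F S) (p : Polynomial ℂ), P.loc w0 = sphKer hv p → P.loc w1 =
      LKer.one S w1 →
      P.loc w2 = LKer.one S w2 → (∀ u ∉ ({w0, w1, w2} : Finset (Place F)), P.loc u = P₀.loc u) →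
      blockSum P hS α {w0, w1, w2} (fun _ => 1) ν = ctil (pnorm w0) (kern (pnorm w0) p) m * h ∧
      blockSum P hS α {w0, w1, w2} (blockW {w0, w1, w2}) ν
        = 3 * sphSum (pnorm w0) p m (wVal (pnorm w0)) * h := by
  set B : Finset (Place F) := {w0, w1, w2}
  have hB : ∀ w, mapPlace τ w ∈ B ↔ w ∈ B := mapPlace_mem_cycle_iff h01 h12 h20
  set δ := upMat α (0 : F) with hδ
  set ξ : Fˣ := α * Units.map (τ : F →+* F).toMonoidHom α
    * Units.map (τ : F →+* F).toMonoidHom (Units.map (τ : F →+* F).toMonoidHom α) with hξdef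
  have hξ : δ * mapGL τ δ * mapGL τ (mapGL τ δ) = upMat ξ 0 := by
    rw [hδ, hξdef, mapGL_upMat, mapGL_upMat, upMat_mul, upMat_mul]
    simp
  have hmξ : |ord (w0.valuation F) (ξ : F)| = (m : ℤ) := hm
  let z1 : Vert S w0 → Vert S w1 := fun a => δ • Vert.amap hS h01 a
  let z2 : Vert S w1 → Vert S w2 := fun b => δ • Vert.amap hS h12 b
  have hcyc : ∀ a, δ • Vert.amap hS h20 (z2 (z1 a)) = upMat ξ 0 • a := fun a => by
    obtain ⟨g, rfl⟩ := QuotientGroup.mk_surjective a
    simp only [z1, z2, Vert.amap_mk, MulAction.Quotient.smul_coe, smul_eq_mul, map_mul,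
      mapGL_three h3, ← hξ, mul_assoc]
  set d0 := nloc w0 (eInf : Fin 2 → F) (ν.1 w0)
  have hd1 : ∀ a, nloc w1 (eInf : Fin 2 → F) (z1 a) =
      nloc w0 (eInf : Fin 2 → F) a / vabs w1 (α : F) := fun a => by
    change nloc w1 _ (δ • _) = _
    rw [hδ, nloc_eInf_smul, nloc_amap, symVec_eInf]
  have hd2 : ∀ b, nloc w2 (eInf : Fin 2 → F) (z2 b) =
      nloc w1 (eInf : Fin 2 → F) b / vabs w2 (α : F) := fun b => by
    change nloc w2 _ (δ • _) = _
    rw [hδ, nloc_eInf_smul, nloc_amap, symVec_eInf]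
  -- the vertex at `w0` determines the other two; the heights must be compatible
  set compat : Prop := nloc w1 (eInf : Fin 2 → F) (ν.1 w1) = d0 / vabs w1 (α : F) ∧
    nloc w2 (eInf : Fin 2 → F) (ν.1 w2) = d0 / vabs w1 (α : F) / vabs w2 (α : F)
  refine ⟨if compat then
    (if ∃ a : Vert S w0, nloc w0 (eInf : Fin 2 → F) a = d0 then 1 else 0) * outB hS P₀ B δ ν else 0,
    fun P p hp hp1 hp2 hP => ?_⟩
  have hat : ∀ (μ : FinPt F S) {u u' : Place F} (h : mapPlace τ u = u'),
      (δ • FinPt.amap hS μ).1 u' = δ • Vert.amap hS h (μ.1 u) := fun μ u u' h => by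
    obtain rfl : u = (mapPlace τ).symm u' := by rw [← h, Equiv.symm_apply_apply]
    rfl
  have hprod : ∀ f : Place F → ℂ, ∏ u ∈ B, f u = f w0 * (f w1 * f w2) := fun f => by
    rw [Finset.prod_insert (by simp [n01, n02]), Finset.prod_pair n12]
  have hfin : ∀ μ : {μ : FinPt F S // SameBlock B μ ν}, P.fin μ.1 (δ • FinPt.amap hS μ.1)
      = (if μ.1.1 w1 = z1 (μ.1.1 w0) ∧ μ.1.1 w2 = z2 (μ.1.1 w1) then
          sphKer hv p (μ.1.1 w0) (upMat ξ 0 • μ.1.1 w0) else 0) * outB hS P₀ B δ ν := fun μ => by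
    rw [fin_block hS P B, outB_congr hS hB (fun u hu => hP u hu) μ.2.1, hprod, hp, hp1, hp2,
      hat μ.1 h20, hat μ.1 h01, hat μ.1 h12, LKer.one_apply, LKer.one_apply]
    congr 1
    change _ * ((if μ.1.1 w1 = z1 (μ.1.1 w0) then (1 : ℂ) else 0)
      * (if μ.1.1 w2 = z2 (μ.1.1 w1) then (1 : ℂ) else 0)) = _
    by_cases e1 : μ.1.1 w1 = z1 (μ.1.1 w0)
    · by_cases e2 : μ.1.1 w2 = z2 (μ.1.1 w1)
      · rw [if_pos e1, if_pos e2, if_pos ⟨e1, e2⟩, one_mul, mul_one, e2, e1, hcyc]
      · simp [e2]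
    · simp [e1]
  by_cases hc : compat
  swap
  · have hz : ∀ (W₀ : FinPt F S → ℝ), blockSum P hS α B W₀ ν = 0 := fun W₀ => by
      refine (tsum_congr fun μ : {μ : FinPt F S // SameBlock B μ ν} => ?_).trans tsum_zero
      rw [hfin μ, if_neg, zero_mul, mul_zero]
      rintro ⟨e1, e2⟩
      have m0 := μ.2.2 w0 (by simp [B])
      have m1 := μ.2.2 w1 (by simp [B])
      have m2 := μ.2.2 w2 (by simp [B])
      have q2 := hd2 (μ.1.1 w1)
      rw [← e2, m2] at q2
      rw [e1, hd1, m0] at m1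
      rw [e1, hd1, m0] at q2
      exact hc ⟨m1.symm, q2⟩
    simp [hz, if_neg hc]
  rw [if_pos hc]
  let glue : Vert S w0 → FinPt F S := fun a => ((ν.set w0 a).set w1 (z1 a)).set w2 (z2 (z1 a))
  have g0 : ∀ a, (glue a).1 w0 = a := fun a => by
    simp only [glue]
    rw [FinPt.set_of_ne _ n02, FinPt.set_of_ne _ n01, FinPt.set_self]
  have g1 : ∀ a, (glue a).1 w1 = z1 a := fun a => by
    simp only [glue]
    rw [FinPt.set_of_ne _ n12, FinPt.set_self]
  have g2 : ∀ a, (glue a).1 w2 = z2 (z1 a) := fun a => FinPt.set_self _ _ _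
  have hz1 : ∀ a, nloc w0 (eInf : Fin 2 → F) a = d0 →
      nloc w1 (eInf : Fin 2 → F) (z1 a) = nloc w1 (eInf : Fin 2 → F) (ν.1 w1) := fun a ha => by
    rw [hd1, ha, hc.1]
  have hz2 : ∀ b, nloc w1 (eInf : Fin 2 → F) b = nloc w1 (eInf : Fin 2 → F) (ν.1 w1) →
      nloc w2 (eInf : Fin 2 → F) (z2 b) = nloc w2 (eInf : Fin 2 → F) (ν.1 w2) := fun b hb => by
    rw [hd2, hb, hc.1, hc.2]
  -- hence both sums run over one height fibre at `w0`
  have hred : ∀ W₀ : FinPt F S → ℝ, blockSum P hS α B W₀ ν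
      = ∑' a : {a : Vert S w0 // nloc w0 (eInf : Fin 2 → F) a = d0},
        (W₀ (glue a.1) : ℂ) * P.fin (glue a.1) (δ • FinPt.amap hS (glue a.1)) := fun W₀ =>
    tsum_sameBlock_three n01 n02 n12 ν z1 z2 hz1 hz2
      (fun μ => (W₀ μ : ℂ) * P.fin μ (δ • FinPt.amap hS μ)) fun μ hμ hne => by
      by_contra hcond
      rw [hfin ⟨μ, hμ⟩, if_neg hcond, zero_mul, mul_zero] at hne
      exact hne rfl
  have hval : ∀ a : {a : Vert S w0 // nloc w0 (eInf : Fin 2 → F) a = d0},
      P.fin (glue a.1) (δ • FinPt.amap hS (glue a.1))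
        = sphKer hv p a.1 (upMat ξ 0 • a.1) * outB hS P₀ B δ ν := fun a => by
    have hμ : SameBlock B (glue a.1) ν :=
      sameBlock_set_three n01 n02 n12 ν a.2 (hz1 _ a.2) (hz2 _ (hz1 _ a.2))
    rw [hfin ⟨glue a.1, hμ⟩, if_pos ⟨by rw [g1, g0], by rw [g2, g1]⟩, g0]
  have hsum : ∀ a : {a : Vert S w0 // nloc w0 (eInf : Fin 2 → F) a = d0},
      blockW B (glue a.1) = 3 * wLog a.1 := fun a => by
    rw [blockW_eq_sum, Finset.sum_insert (by simp [n01, n02]), Finset.sum_pair n12, g0, g1, g2]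
    simp only [z1, z2, hδ, wLog_smul, wLog_amap]
    ring
  obtain ⟨h1, h2⟩ := tsum_sph_pair hv p hmξ hm0 d0
  constructor
  · rw [← mul_assoc, ← h1, ← tsum_mul_right, hred fun _ => 1]
    exact tsum_congr fun a => by rw [hval a, Complex.ofReal_one, one_mul]
  · rw [← mul_assoc, mul_assoc (3 : ℂ), ← h2, mul_assoc, ← tsum_mul_right,
      ← tsum_mul_left, hred (blockW B)]
    exact tsum_congr fun a => by
      rw [hval a, hsum a]
      push_cast
      ring

end Fermat.LTG
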