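import Fermat.Agent.LTG.Hyp.LocalSum
import Fermat.Agent.LTG.Hyp.Assemble
import Fermat.Agent.LT.HypK
import Fermat.Agent.LT.HypL

/-!
# Densities for the non-elliptic parts

`hypStatement` proves `HypStatement`: at a split good place `v0` the non-elliptic part of
the trace on `K` (`hyp_density_K`) and the non-twisted-elliptic part of the twisted trace on `L`
(`hyp_density_L`) are given by densities. In both cases a class with nonzero kernel is diagonal
with ratio (or twisted norm of the ratio) of odd order at `v0`; `hasDensity_part` sums the blocks.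
-/

set_option autoImplicit false
open IsDedekindDomain NumberField MeasureTheory Filter Set Polynomial
open scoped Classical Matrix ComplexConjugate

namespace Fermat.LTG

open Fermat.LT

section Generic

variable {F : Type*} [Field F] [NumberField F] {S : Lev F}

/-- A kernel varying at one place is linear in what varies. -/
lemma PKer.val_linear {P₁ P₂ P : PKer F S} {v : Place F} (c₁ c₂ : ℂ)
    (h₁ : ∀ u ≠ v, P₁.loc u = P.loc u) (h₂ : ∀ u ≠ v, P₂.loc u = P.loc u) (ha₁ : P₁.arch = P.arch)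
    (ha₂ : P₂.arch = P.arch) (h : ∀ a b, P.loc v a b = c₁ * P₁.loc v a b + c₂ * P₂.loc v a b)
    (x y : Pt F S) :
    P.val x y = c₁ * P₁.val x y + c₂ * P₂.val x y := by
  have e : ∀ {Q : PKer F S}, (∀ u ≠ v, Q.loc u = P.loc u) → Q.arch = P.arch →
      Q.val x y = Q.loc v (x.1.1 v) (y.1.1 v)
        * ((∏ᶠ (u : Place F) (_ : u ≠ v), P.loc u (x.1.1 u) (y.1.1 u)) * P.inf x.2 y.2) := by
    intro Q hQ hQa
    rw [PKer.val, Q.fin_eq_mul v, mul_assoc]
    refine congrArg₂ (· * ·) rfl (congrArg₂ (· * ·) ?_ ?_)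
    · exact finprod_congr fun u => finprod_congr fun hu => by rw [hQ u hu]
    · simp only [PKer.inf, hQa]
  rw [e h₁ ha₁, e h₂ ha₂, e (fun _ _ => rfl) rfl, h]
  ring

/-- Where the spherical kernel of an odd polynomial does not vanish at `(a, g • a)`, the determinant
of `g` has odd valuation. -/
lemma odd_of_sph_ne_zero {v : Place F} (hv : v ∉ S) (r : ℝ[X]) (g : GL (Fin 2) F) (a : Vert S v)
    (h : sphKer hv (oddP r) a (g • a) ≠ 0) :
    ord (v.valuation F) (g : Matrix (Fin 2) (Fin 2) F).det % 2 = 1 := by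
  obtain ⟨b, rfl⟩ := QuotientGroup.mk_surjective a
  rw [sphKer_apply, MulAction.Quotient.smul_coe, vd_mk, smul_eq_mul] at h
  exact ord_det_odd_of_kern_ne_zero _ _ r h

/-- The kernel summed over the classes in `C`, at a point and its conjugate, as `partFun`. -/
lemma kapOn_eq_partFun {τ : F ≃+* F} (hS : Stable τ S) (C : PG F → Prop)
    (P : PKer F S) (p : Pt F S) :
    P.kapOn C p (Pt.amap hS p) = partFun hS (fun γ => C γ.cls) P p := by
  rw [partFun, PKer.kapOn]
  refine tsum_congr fun γ => ?_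
  simp only [twVal]
  congr

/-- One bound for finitely many kernels. -/
lemma exists_block_bound_fintype [IsTotallyComplex F] {τ : F ≃+* F} (hS : Stable τ S) {ι : Type*}
    [Fintype ι] (K₀ : ι → PKer F S) (B : Finset (Place F)) (hB : ∀ w, mapPlace τ w ∈ B ↔ w ∈ B) :
    ∃ C : ℝ, ∀ (i : ι) (K : PKer F S), (∀ w ∉ B, K.loc w = (K₀ i).loc w) → K.arch = (K₀ i).arch →
      ∀ (α : Fˣ) (p : Pt F S), twVal K hS (TwPG.of τ (upMat α (0 : F) : PG F)) p ≠ 0 →
      ∏ w ∈ B, vabs w (α : F) ≤ C ∧ 1 ≤ C * ∏ w ∈ B, vabs w (α : F) := by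
  choose C hC1 hC using fun i => exists_block_bound hS (K₀ i) B hB
  refine ⟨∑ i, C i, fun i K h1 h2 α p hne => ?_⟩
  have hle : C i ≤ ∑ j, C j :=
    Finset.single_le_sum (f := C) (fun j _ => zero_le_one.trans (hC1 j)) (Finset.mem_univ i)
  obtain ⟨a, b⟩ := hC i K h1 h2 α p hne
  exact ⟨a.trans hle,
    b.trans (mul_le_mul_of_nonneg_right hle (Finset.prod_nonneg fun w _ => apply_nonneg _ _))⟩

/-- Moving a vertex around a three-cycle of places of an automorphism of order three is the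
identity. -/
lemma amap_cycle {τ : F ≃+* F} (hS : Stable τ S) (h3 : ∀ x, τ (τ (τ x)) = x) {u₁ u₂ u₃ : Place F}
    (h₁ : mapPlace τ u₁ = u₂) (h₂ : mapPlace τ u₂ = u₃) (h₃ : mapPlace τ u₃ = u₁) (a : Vert S u₁) :
    Vert.amap hS h₃ (Vert.amap hS h₂ (Vert.amap hS h₁ a)) = a := by
  obtain ⟨g, rfl⟩ := QuotientGroup.mk_surjective a
  rw [Vert.amap_mk, Vert.amap_mk, Vert.amap_mk]
  exact congrArg QuotientGroup.mk (Units.ext (Matrix.ext fun _ _ => h3 _))

/-- A family spherical at one place and constant elsewhere is additive in the odd polynomial. -/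
lemma val_sph_family_add {v : Place F} (hv : v ∉ S) (P : ℝ[X] → PKer F S)
    (hloc : ∀ r, (P r).loc v = sphKer hv (oddP r)) (hne : ∀ r s, ∀ u ≠ v, (P r).loc u = (P s).loc u)
    (harch : ∀ r s, (P r).arch = (P s).arch) (r s : ℝ[X]) (x y : Pt F S) :
    (P (r + s)).val x y = (P r).val x y + (P s).val x y := by
  simpa using PKer.val_linear (P₁ := P r) (P₂ := P s) (P := P (r + s)) (v := v) 1 1
    (hne _ _) (hne _ _)
    (harch _ _) (harch _ _)
      (fun a b => by simp only [hloc, one_mul, sphKer_apply, kern_oddP_add]) x y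

/-- A family spherical at one place and constant elsewhere is homogeneous in the odd polynomial. -/
lemma val_sph_family_smul {v : Place F} (hv : v ∉ S) (P : ℝ[X] → PKer F S)
    (hloc : ∀ r, (P r).loc v = sphKer hv (oddP r)) (hne : ∀ r s, ∀ u ≠ v, (P r).loc u = (P s).loc u)
    (harch : ∀ r s, (P r).arch = (P s).arch) (a : ℝ) (r : ℝ[X]) (x y : Pt F S) :
    (P (a • r)).val x y = (a : ℂ) * (P r).val x y := by
  simpa using PKer.val_linear (P₁ := P r) (P₂ := P r) (P := P (a • r)) (v := v) (a : ℂ) 0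
    (hne _ _) (hne _ _) (harch _ _) (harch _ _)
    (fun a' b => by simp only [hloc, zero_mul, add_zero, sphKer_apply, kern_oddP_smul]) x y

end Generic

/-- A nonzero kernel, spherical at one place of a three-cycle and trivial at the others,
has odd twisted norm. -/
lemma odd_ord_twistN_of_ne_zero {F : Type} [Field F] [NumberField F]
    {S : Lev F} {τ : F ≃+* F} (hS : Stable τ S) (h3 : ∀ x, τ (τ (τ x)) = x) {w0 w1 w2 : Place F}
    (e1 : mapPlace τ w0 = w1) (e2 : mapPlace τ w1 = w2) (e3 : mapPlace τ w2 = w0) (hw0 : w0 ∉ S)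
    (P : PKer F S) (r : ℝ[X]) (l0 : P.loc w0 = sphKer hw0 (oddP r)) (l1 : P.loc w1 = LKer.one _ w1)
    (l2 : P.loc w2 = LKer.one _ w2) {γ : TwPG τ} {g : GL (Fin 2) F} (hg : (g : PG F) = γ.cls)
    {p : Pt F S} (hne : twVal P hS γ p ≠ 0) :
    ord (w0.valuation F) (twistN τ g : Matrix (Fin 2) (Fin 2) F).det % 2 = 1 := by
  rw [twVal, ← hg, PG.mk_smul, PKer.val, mul_ne_zero_iff, PKer.fin_ne_zero] at hne
  have hat : ∀ {u u' : Place F} (h : mapPlace τ u = u'),
      (g • Pt.amap hS p).1.1 u' = g • Vert.amap hS h (p.1.1 u) := fun {u u'} h => by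
    obtain rfl : u = (mapPlace τ).symm u' := by rw [← h, Equiv.symm_apply_apply]
    rfl
  have f1 := hne.1 w1
  have f2 := hne.1 w2
  have f0 := hne.1 w0
  rw [l1, hat e1, LKer.one_apply, ne_eq, ite_eq_right_iff, Classical.not_imp] at f1
  rw [l2, hat e2, LKer.one_apply, ne_eq, ite_eq_right_iff, Classical.not_imp] at f2
  rw [l0, hat e3, f2.1, f1.1] at f0
  simp only [Vert.amap_smul, amap_cycle hS h3] at f0
  rw [← mul_smul, ← mul_smul] at f0
  exact odd_of_sph_ne_zero hw0 r (twistN τ g) _ f0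

variable {K L : Type} [Field K] [NumberField K] [Field L] [NumberField L] [Algebra K L]
  {σ : L ≃ₐ[K] L} {B : Block K L σ} {v0 : Place K}

/-- After setting `p` at a split place `w0`, the polynomials being `1` over `v0`, the base change
polynomial at `v0` is `p`. -/
lemma bcPoly_upd_self (t : TestData B) (hv0 : v0 ∉ B.S) {w0 : Place L} (hw0 : LiesOver K L w0 v0)
    (hpn : pnorm w0 = pnorm v0) (ht : ∀ w, LiesOver K L w v0 → t.h w = 1) (p : ℂ[X]) :
    (t.upd hv0 hw0 p).bcPoly v0 = p :=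
  finprod_bc_update_self hw0 hpn t.h ht p

/-- Changing the polynomial at `w0` does not change the base change polynomials away from `v0`. -/
lemma bcPoly_upd_ne (t : TestData B) (hv0 : v0 ∉ B.S) {w0 : Place L} (hw0 : LiesOver K L w0 v0)
    {v : Place K} (hv : v ≠ v0) (p p' : ℂ[X]) :
    (t.upd hv0 hw0 p).bcPoly v = (t.upd hv0 hw0 p').bcPoly v :=
  finprod_bc_update_ne hw0 hv t.h p p'

variable {ι : Type} [Fintype ι] (c : ι → ℂ) (t : ι → TestData B) (hv0 : v0 ∉ B.S) {w0 : Place L}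
  (hw0 : LiesOver K L w0 v0)

omit [Fintype ι] in
/-- On `K` the updated kernels agree away from `v0`. -/
lemma kerK_upd_ne {v : Place K} (hv : v ≠ v0) (i : ι) (p p' : ℂ[X]) :
    (kerK σ ((t i).upd hv0 hw0 p)).loc v = (kerK σ ((t i).upd hv0 hw0 p')).loc v := by
  change dite _ _ _ = dite _ _ _
  rw [bcPoly_upd_ne (t i) hv0 hw0 hv p p']

omit [Fintype ι] in
/-- On `L` the updated kernels agree away from `w0`. -/
lemma kerL_upd_ne {w : Place L} (hw : w ≠ w0) (i : ι) (p p' : ℂ[X]) :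
    (kerL ((t i).upd hv0 hw0 p)).loc w = (kerL ((t i).upd hv0 hw0 p')).loc w := by
  change dite _ _ _ = dite _ _ _
  have e : ∀ q, ((t i).upd hv0 hw0 q).h w = (t i).h w := fun q => Function.update_of_ne hw _ _
  rw [e, e]

omit [Fintype ι] in
/-- On `K` updating does not change the kernel at infinity. -/
lemma kerK_upd_arch (i : ι) (p p' : ℂ[X]) :
    (kerK σ ((t i).upd hv0 hw0 p)).arch = (kerK σ ((t i).upd hv0 hw0 p')).arch := rfl

omit [Fintype ι] in
/-- On `L` updating does not change the kernel at infinity. -/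
lemma kerL_upd_arch (i : ι) (p p' : ℂ[X]) :
    (kerL ((t i).upd hv0 hw0 p)).arch = (kerL ((t i).upd hv0 hw0 p')).arch := rfl

omit [Fintype ι] in
/-- The updated kernel on the small field at the chosen place. -/
lemma kerK_upd_loc_self (hpn : pnorm w0 = pnorm v0) (ht : ∀ i w, LiesOver K L w v0 → (t i).h w = 1)
    (i : ι) (p : ℂ[X]) : (kerK σ ((t i).upd hv0 hw0 p)).loc v0 = sphKer hv0 p := by
  rw [kerK_loc_sph _ hv0, bcPoly_upd_self (t i) hv0 hw0 hpn (ht i)]

omit [Fintype ι] in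
/-- The updated kernel at the chosen place. -/
lemma kerL_upd_loc_self (hwS : w0 ∉ B.T) (i : ι) (p : ℂ[X]) :
    (kerL ((t i).upd hv0 hw0 p)).loc w0 = sphKer hwS p := by
  rw [kerL_loc_sph _ hwS]
  exact congrArg _ (Function.update_self (β := fun _ => ℂ[X]) w0 p (t i).h)

omit [Fintype ι] in
/-- The updated kernel at the other places over the same place. -/
lemma kerL_upd_loc_other (ht : ∀ i w, LiesOver K L w v0 → (t i).h w = 1) {w : Place L}
    (hw : LiesOver K L w v0) (hne : w ≠ w0) (i : ι) (p : ℂ[X]) :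
    (kerL ((t i).upd hv0 hw0 p)).loc w = LKer.one _ w := by
  rw [kerL_loc_sph _ (fun h => hv0 ((B.mem_iff hw).1 h)),
    show ((t i).upd hv0 hw0 p).h w = 1 from
      (Function.update_of_ne hne _ _).trans (ht i w hw), sphKer_one]

/-- **Densities on `K`**: as a functional of the odd polynomial at `v0`, the non-elliptic part of
the trace of a combination of kernels has a density. -/
theorem hyp_density_K [IsTotallyComplex K] (hpn : pnorm w0 = pnorm v0)
    (ht : ∀ i w, LiesOver K L w v0 → (t i).h w = 1) {DK : Set (Pt K B.S)}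
    (hDK : IsFundamentalDomain (PG K) DK ptMeasure)
    (hI : ∀ r : ℝ[X], IntegrableOn (fun p => (sumK σ c fun i => (t i).upd hv0 hw0 (oddP r)).kapOn
      (fun γ => ¬ γ.IsEll) p p) DK ptMeasure) :
    HasDensity (pnorm v0) (fun r => ∫ p in DK, (sumK σ c fun i => (t i).upd hv0 hw0 (oddP r)).kapOn
      (fun γ => ¬ γ.IsEll) p p ∂ptMeasure) := by
  set P : ℝ[X] → ι → PKer K B.S := fun r i => kerK σ ((t i).upd hv0 hw0 (oddP r))
  have hloc : ∀ r i, (P r i).loc v0 = sphKer hv0 (oddP r) :=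
    fun r i => kerK_upd_loc_self t hv0 hw0 hpn ht i _
  set τ : K ≃+* K := RingEquiv.refl K
  let hS : Stable τ B.S := stable_refl _
  set Pr : TwPG τ → Prop := fun γ => ¬ γ.cls.IsEll
  have e : ∀ r p, (sumK σ c fun i => (t i).upd hv0 hw0 (oddP r)).kapOn (fun γ => ¬ γ.IsEll) p p
      = ∑ i, c i * partFun hS Pr (P r i) p := fun r p => by
    rw [sumK, SKer.kapOn_ofFintype]
    refine Finset.sum_congr rfl fun i _ => ?_
    rw [← kapOn_eq_partFun hS (fun γ => ¬ γ.IsEll), Pt.amap_refl]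
  replace hI : ∀ r, IntegrableOn (fun p => ∑ i, c i * partFun hS Pr (P r i) p) DK ptMeasure :=
      fun r =>
    (hI r).congr_fun_ae (Eventually.of_forall (e r))
  simp only [e]
  -- the index set: ratios of odd order at `v0`
  let Ξ := {ξ : Kˣ // ord (v0.valuation K) (ξ : K) % 2 = 1}
  set α : Ξ → Kˣ := fun ξ => ξ.1
  set nn : Ξ → ℕ := fun ξ => (ord (v0.valuation K) (ξ.1 : K)).natAbs
  have hξ1 : ∀ ξ : Ξ, ξ.1 ≠ 1 := fun ξ h => by
    have := ξ.2; rw [h, Units.val_one, ord_one] at this; omega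
  have hfix : ∀ (ξ : Ξ) (x : K), τ x * (α ξ : K) = x → x = 0 := fun ξ x h => by
    by_contra hx
    exact hξ1 ξ (Units.ext (mul_left_cancel₀ hx (h.trans (mul_one x).symm)))
  have hB : ∀ w, mapPlace τ w ∈ ({v0} : Finset (Place K)) ↔ w ∈ ({v0} : Finset (Place K)) :=
      fun w => by
    rw [show mapPlace τ w = w from mapPlace_refl w]
  obtain ⟨C, hC⟩ := exists_block_bound_fintype hS (P 0) {v0} hB
  obtain ⟨M, hM⟩ := exists_ord_bound v0 C
  have : Countable Kˣ := Units.val_injective.countable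
  have : Countable Ξ := inferInstanceAs (Countable {ξ : Kˣ // ord (v0.valuation K) (ξ : K) % 2 = 1})
  refine hasDensity_part hS Pr α nn c P hDK ?_ ?_ ?_ ?_ hfix
    (zero_lt_one.trans (HeightOneSpectrum.one_lt_absNorm v0)) M ?_ ?_ (B := {v0}) ?_
    (fun r n => sphSum (pnorm v0) (oddP r) n (wVal (pnorm v0))) ?_ ?_ ?_ ?_ hI
  -- the classes: invariance, the diagonal ones qualify, each is met twice
  · exact fun δ γ => not_congr (ellP_smul δ γ)
  · intro ξ
    exact fun h => PG.not_isEll_of_upper ⟨_, rfl, by simp [α]⟩ h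
  · intro γ hγ
    refine ncard_diag_pairs α hfix (fun ξ ξ' t ht0 h => Subtype.ext (Units.ext ?_)) (fun ξ => ?_) hγ
    · exact (mul_left_cancel₀ ht0 ((mul_comm _ _).trans h)).symm
    · refine ⟨⟨ξ.1⁻¹, ?_⟩, 1, one_ne_zero, ?_⟩
      · have := ξ.2
        rw [Units.val_inv_eq_inv_val, ord_inv]; omega
      · simp [α, τ]
  · -- the classes where the kernel is not zero are split with ratio of odd order
    intro r i γ p hPr hne
    obtain ⟨g, hg⟩ := QuotientGroup.mk_surjective γ.cls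
    rw [twVal_refl, ← hg, PG.mk_smul, PKer.val, mul_ne_zero_iff, PKer.fin_ne_zero] at hne
    have h0 := hne.1 v0
    rw [show (P r i).loc v0 = sphKer hv0 (oddP r) from hloc r i] at h0
    have hodd := odd_of_sph_ne_zero hv0 r g _ h0
    have hsq : IsSquare (disc2 (g : Matrix (Fin 2) (Fin 2) K)) := by
      by_contra h
      exact hPr (by rw [← hg, PG.isEll_iff]; exact h)
    obtain ⟨h, l₁, l₂, hl, he⟩ := exists_diagonal hsq (disc_ne_zero_of_odd _ hodd)
    rw [det_of_diagonalised he, ord_mul _ l₁.ne_zero l₂.ne_zero] at hodd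
    let ξ : Ξ := ⟨l₁ * l₂⁻¹, by
      rw [Units.val_mul, ord_mul _ l₁.ne_zero (l₂⁻¹).ne_zero, Units.val_inv_eq_inv_val,
        ord_inv]; omega⟩
    refine ⟨⟨ξ, ((h : PG K) : PG K ⧸ dTor τ)⟩, ?_⟩
    change (pairPt (fun _ : Ξ => dTor τ) (fun ξ => diagCls τ (α ξ)) _).cls = γ.cls
    rw [diag_val, ← hg]
    refine PG.eq_iff.2 ⟨l₂, ?_⟩
    have hh : g * h = h * (scal l₂ * upMat (l₁ * l₂⁻¹) 0) := by
      refine Units.ext ?_
      rw [Units.val_mul, he, Units.val_mul, coe_scal_mul_upMat_div]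
    have hm : mapGL τ h = h := Units.ext (by rw [coe_mapGL]; rfl)
    rw [hm, ← mul_assoc, ← mul_assoc]
    change g = scal l₂ * h * upMat (l₁ * l₂⁻¹) 0 * h⁻¹
    rw [eq_mul_inv_iff_mul_eq, hh, ← mul_assoc, scal_comm]
  · -- the order at `v0` of the ratio is bounded
    intro r i ξ p hne
    obtain ⟨h1, h2⟩ := hC i (P r i) (fun w hw => kerK_upd_ne t hv0 hw0 (by simpa using hw) i _ _)
      (kerK_upd_arch t hv0 hw0 i _ _) ξ.1 p hne
    rw [Finset.prod_singleton] at h1 h2
    exact hM _ ξ.1.ne_zero h1 h2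
  · intro ξ
    have := ξ.2
    simp only [nn]; omega
  · exact fun r r' i => kerK_upd_arch t hv0 hw0 i _ _
  · -- the sums over the block at `v0`
    intro i ξ ν
    obtain ⟨h, hh⟩ := blockSum_one hS (P 0 i) hv0 (ξ := ξ.1) (m := nn ξ) (by simp [nn]) (by
      have := ξ.2
      simp only [nn]; omega) ν
    exact ⟨h, fun r => hh (P r i) (oddP r) (hloc r i) fun u hu => kerK_upd_ne t hv0 hw0 hu i _ _⟩
  · exact fun r n => ctil_oddP_conj _ r n
  · exact fun r s i => val_sph_family_add hv0 (P · i) (hloc · i)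
      (fun _ _ _ hu => kerK_upd_ne t hv0 hw0 hu i _ _) (fun _ _ =>
        kerK_upd_arch t hv0 hw0 i _ _) r s
  · exact fun a r i => val_sph_family_smul hv0 (P · i) (hloc · i)
      (fun _ _ _ hu => kerK_upd_ne t hv0 hw0 hu i _ _) (fun _ _ =>
        kerK_upd_arch t hv0 hw0 i _ _) a r

/-- **Densities on `L`**: as a functional of the odd polynomial at `w0`, the part of the twisted
trace outside the twisted elliptic classes has a density. -/
theorem hyp_density_L [IsTotallyComplex L] (hc : Cyc3 K L σ) (hpn : pnorm w0 = pnorm v0)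
    (ht : ∀ i w, LiesOver K L w v0 → (t i).h w = 1) {DL : Set (Pt L B.T)}
    (hDL : IsFundamentalDomain (PG L) DL ptMeasure)
    (hI : ∀ r : ℝ[X], IntegrableOn (fun p => (sumL c fun i => (t i).upd hv0 hw0 (oddP r)).kapOn
      (fun γ => ¬ γ.IsTwEll (σ : L ≃+* L)) p (Pt.amap B.stable p)) DL ptMeasure) :
    HasDensity (pnorm v0) (fun r => ∫ p in DL, (sumL c fun i => (t i).upd hv0 hw0 (oddP r)).kapOn
      (fun γ => ¬ γ.IsTwEll (σ : L ≃+* L)) p (Pt.amap B.stable p) ∂ptMeasure) := by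
  set τ : L ≃+* L := (σ : L ≃+* L)
  let hS : Stable τ B.T := B.stable
  set P : ℝ[X] → ι → PKer L B.T := fun r i => kerL ((t i).upd hv0 hw0 (oddP r))
  set Pr : TwPG τ → Prop := fun γ => ¬ TwP σ γ
  have e : ∀ r p, (sumL c fun i => (t i).upd hv0 hw0 (oddP r)).kapOn (fun γ => ¬ γ.IsTwEll τ) p
      (Pt.amap hS p)
      = ∑ i, c i * partFun hS Pr (P r i) p := fun r p => by
    rw [sumL, SKer.kapOn_ofFintype]
    refine Finset.sum_congr rfl fun i _ => ?_
    rw [kapOn_eq_partFun hS (fun γ => ¬ γ.IsTwEll τ)]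
    rfl
  replace hI : ∀ r, IntegrableOn (fun p => ∑ i, c i * partFun hS Pr (P r i) p) DL ptMeasure :=
      fun r =>
    (hI r).congr_fun_ae (Eventually.of_forall (e r))
  change HasDensity _ (fun r => ∫ p in DL, (sumL c fun i => (t i).upd hv0 hw0 (oddP r)).kapOn
    (fun γ => ¬ γ.IsTwEll τ) p (Pt.amap hS p) ∂ptMeasure)
  simp only [e]
  -- the places over `v0`
  obtain ⟨-, he0, -, hmv0⟩ | ⟨-, -, ⟨he', -⟩ | ⟨-, hn'⟩⟩ := hc.trichotomy hw0
  rotate_left
  · exact absurd (B.ram_mem v0 ((hc.mem_ramSet_iff hw0).2 he')) hv0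
  · have h := two_le_pnorm v0
    rw [hpn] at hn'
    nlinarith [mul_le_mul h h (by norm_num) (by omega)]
  obtain ⟨h21, h31, h32⟩ := Split.distinct hc hmv0
  set w1 := mapPlace τ w0 with hw1'
  set w2 := mapPlace τ w1 with hw2'
  have hw1 : LiesOver K L w1 v0 := hw0.mapPlace σ
  have hw2 : LiesOver K L w2 v0 := hw1.mapPlace σ
  have hwS : w0 ∉ B.T := fun h => hv0 ((B.mem_iff hw0).1 h)
  have hloc : ∀ r i, (P r i).loc w0 = sphKer hwS (oddP r) :=
    fun r i => kerL_upd_loc_self t hv0 hw0 hwS i _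
  have hone1 : ∀ r i, (P r i).loc w1 = LKer.one _ w1 :=
    fun r i => kerL_upd_loc_other t hv0 hw0 ht hw1 h21 i _
  have hone2 : ∀ r i, (P r i).loc w2 = LKer.one _ w2 :=
    fun r i => kerL_upd_loc_other t hv0 hw0 ht hw2 h31 i _
  have hne : ∀ r s i, ∀ u ≠ w0, (P r i).loc u = (P s i).loc u := fun r s i u hu =>
    kerL_upd_ne t hv0 hw0 hu i _ _
  have hord : ∀ x : K, ord (w0.valuation L) (algebraMap K L x) = ord (v0.valuation K) x :=
      fun x => by
    rw [ord, ord, Split.val_iota hw0 he0]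
  -- the index set
  let Ξ := {ξ : Kˣ // ord (v0.valuation K) (ξ : K) % 2 = 1 ∧
    ∃ α : Lˣ, (α : L) * σ α * σ (σ α) = algebraMap K L ξ}
  set α : Ξ → Lˣ := fun ξ => ξ.2.2.choose
  have hα : ∀ ξ : Ξ, (α ξ : L) * σ (α ξ) * σ (σ (α ξ)) = algebraMap K L ξ.1 :=
    fun ξ => ξ.2.2.choose_spec
  set nn : Ξ → ℕ := fun ξ => (ord (v0.valuation K) (ξ.1 : K)).natAbs
  have hξ1 : ∀ ξ : Ξ, algebraMap K L (ξ.1 : K) ≠ 1 := fun ξ h => by
    rw [← map_one (algebraMap K L)] at h
    have := ξ.2.1; rw [(algebraMap K L).injective h, ord_one] at this; omega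
  have hfix : ∀ (ξ : Ξ) (x : L), τ x * (α ξ : L) = x → x = 0 := fun ξ x h =>
    eq_zero_of_twist_fixed hc (by rw [hα]; exact hξ1 ξ) h
  obtain ⟨C, hC⟩ := exists_block_bound_fintype hS (P 0) {w0, w1, w2}
    (mapPlace_mem_cycle_iff rfl rfl (hc.mapPlace_three w0))
  obtain ⟨M, hM⟩ := exists_ord_bound v0 C
  have : Countable Kˣ := Units.val_injective.countable
  have : Countable Ξ := inferInstanceAs (Countable {ξ : Kˣ // ord (v0.valuation K) (ξ : K) % 2 = 1 ∧
    ∃ α : Lˣ, (α : L) * σ α * σ (σ α) = algebraMap K L ξ})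
  refine hasDensity_part hS Pr α nn c P hDL ?_ ?_ ?_ ?_ hfix
    (zero_lt_one.trans (HeightOneSpectrum.one_lt_absNorm v0)) M ?_ ?_ (B := {w0, w1, w2}) ?_
    (fun r n => 3 * sphSum (pnorm v0) (oddP r) n (wVal (pnorm v0))) ?_
    (fun r n => ctil_oddP_conj _ r n) ?_ ?_ hI
  -- the classes: invariance, the diagonal ones qualify, each is met twice
  · exact fun δ γ => not_congr (twP_smul hc δ γ)
  · exact fun ξ => not_twP_of_upper ⟨_, rfl, by simp⟩
  · intro γ hγ
    refine ncard_diag_pairs α hfix (fun ξ ξ' s hs h => ?_) (fun ξ => ?_) hγ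
    · have h' := twNorm_eq_of_twist hc hs h
      rw [hα, hα] at h'
      exact (Subtype.ext (Units.ext ((algebraMap K L).injective h'))).symm
    · let ξ' : Ξ := ⟨ξ.1⁻¹, by
        have := ξ.2.1
        rw [Units.val_inv_eq_inv_val, ord_inv]; omega, (α ξ)⁻¹, by
        rw [Units.val_inv_eq_inv_val, Units.val_inv_eq_inv_val, map_inv₀, map_inv₀, map_inv₀,
          ← mul_inv, ← mul_inv, hα]⟩
      obtain ⟨s, hs⟩ := exists_twist_inv hc (a := α ξ) (b := α ξ') (by
        rw [hα, hα, ← map_mul, ← Units.val_mul, show ξ.1 * ξ'.1 = 1 from mul_inv_cancel ξ.1,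
          Units.val_one, map_one])
      exact ⟨ξ', s, hs⟩
  · -- the classes where the kernel is not zero
    intro r i γ p hPr hne'
    obtain ⟨g, hg⟩ := QuotientGroup.mk_surjective γ.cls
    have hodd :=
      odd_ord_twistN_of_ne_zero hS hc.apply_three rfl rfl (hc.mapPlace_three w0) hwS (P r i) r
      (hloc r i) (hone1 r i) (hone2 r i) hg hne'
    have hsq : IsSquare (disc2 (twistN τ g : Matrix (Fin 2) (Fin 2) L)) := by
      by_contra h
      exact hPr (by rw [TwP, ← hg, isTwEll_iff]; exact h)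
    obtain ⟨ξ, hξo, hξN, hcls⟩ := exists_twist_class hc hord g hsq hodd
    obtain ⟨k, b, hk⟩ := hcls (α ⟨ξ, hξo, hξN⟩) (hα _)
    refine ⟨⟨⟨ξ, hξo, hξN⟩, ((k : PG L) : PG L ⧸ dTor τ)⟩, ?_⟩
    change (pairPt (fun _ : Ξ => dTor τ) (fun ξ => diagCls τ (α ξ)) _).cls = γ.cls
    rw [diag_val, ← hg]
    exact PG.eq_iff.2 ⟨b, hk⟩
  · -- the order at `v0` of the norm is bounded
    intro r i ξ p hne'
    obtain ⟨h1, h2⟩ := hC i (P r i) (fun w hw => hne _ _ i w (fun e => hw (by simp [e])))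
      (kerL_upd_arch t hv0 hw0 i _ _) (α ξ) p hne'
    rw [prod_vabs_cycle hc h21 h31 h32, hα, vabs_algebraMap_split hw0 he0 hpn] at h1 h2
    exact hM _ ξ.1.ne_zero h1 h2
  · intro ξ
    have := ξ.2.1
    simp only [nn]; omega
  · exact fun r r' i => kerL_upd_arch t hv0 hw0 i _ _
  · -- the sums over the block at the three places over `v0`
    intro i ξ ν
    obtain ⟨h, hh⟩ :=
      blockSum_three hS (P 0 i) (w0 := w0) (w1 := w1) (w2 := w2) hc.apply_three rfl rfl
      (hc.mapPlace_three w0) h21.symm h31.symm h32.symm hwS (α := α ξ) (m := nn ξ) (by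
        change |ord (w0.valuation L) ((α ξ : L) * σ (α ξ : L) * σ (σ (α ξ : L)))| = _
        rw [hα, hord]
        simp [nn]) (by
        have := ξ.2.1
        simp only [nn]; omega) ν
    rw [hpn] at hh
    exact ⟨h, fun r => hh (P r i) (oddP r) (hloc r i) (hone1 r i) (hone2 r i) fun u hu =>
      hne _ _ i u (fun e => hu (by simp [e]))⟩
  · exact fun r s i => val_sph_family_add hwS (P · i) (hloc · i) (hne · · i)
      (fun _ _ => kerL_upd_arch t hv0 hw0 i _ _) r s
  · exact fun a r i => val_sph_family_smul hwS (P · i) (hloc · i) (hne · · i)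
      (fun _ _ => kerL_upd_arch t hv0 hw0 i _ _) a r

/-- **The non-elliptic parts have densities.** -/
theorem hypStatement (K L : Type) [Field K] [NumberField K] [Field L] [NumberField L]
    [Algebra K L] : HypStatement K L := by
  intro σ hc hK _ B DK hDK DL hDL v0 hv0 w0 hw0 hpn ι _ c t ht hI
  have : IsTotallyComplex K := hK
  have : IsTotallyComplex L := ⟨fun w =>
    InfinitePlace.IsComplex.of_comap (algebraMap K L) (IsTotallyComplex.isComplex _)⟩
  exact ⟨hyp_density_K c t hv0 hw0 hpn ht hDK fun r => (hI r).1,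
    hyp_density_L c t hv0 hw0 hc hpn ht hDL fun r => (hI r).2⟩

end Fermat.LTG
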