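import Fermat.Agent.LTG.Hyp.Height
import Fermat.Agent.LT.HypTorus

/-!
# The diagonal torus on the point space

A partition of unity that only sees the local heights at `∞`, and the scaling flow.
-/

set_option autoImplicit false
open NumberField MeasureTheory Filter Set

namespace Fermat.LTG

open Fermat.LT

variable {F : Type*} [Field F] [NumberField F] {S : Lev F} [IsTotallyComplex F]

/-- What the weight sees: the local norms of `(0 1)` at the finite places and the heights at
infinity. -/
noncomputable def torKey (p : Pt F S) : (Place F → ℝ) × (InfinitePlace F → ℝ) :=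
  (fun v => nloc v (eInf : Fin 2 → F) (p.1.1 v), fun w => (H3.coord (p.2 w)).2)

omit [IsTotallyComplex F] in
/-- What the weight sees is equivariant under the torus. -/
lemma torKey_smul {τ : F ≃+* F} (t : dTor τ) (p : Pt F S) :
    ∃ a : Fˣ, (upMat a 0 : PG F) = (t : PG F) ∧
      torKey (t • p) =
        (fun v => (torKey p).1 v / vabs v (a : F), fun w => w (a : F) * (torKey p).2 w) := by
  obtain ⟨a, -, ha⟩ := mem_dTor.1 t.2
  refine ⟨a, ha, ?_⟩
  rw [Subgroup.smul_def, ← ha, PG.mk_smul]
  refine Prod.ext (funext fun v => ?_) (funext fun w => ?_)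
  · change nloc v _ ((upMat a (0 : F) • p).1.1 v) = _
    rw [Pt.smul_fst, FinPt.smul_apply, nloc_eInf_smul]
    rfl
  · change (H3.coord ((upMat a (0 : F) • p).2 w)).2 = _
    rw [Pt.smul_snd, coord_upMat_smul]
    rfl

/-- **The weight.** The diagonal torus has a nonnegative measurable weight, depending only on
`torKey`, whose translates sum to one. -/
theorem exists_torus_weight (τ : F ≃+* F) :
    ∃ ψ : Pt F S → ℝ, Measurable ψ ∧ (∀ p, 0 ≤ ψ p) ∧
      (∀ p, HasSum (fun t : dTor τ => ψ (t • p)) 1) ∧
      ∀ p q, torKey p = torKey q → ψ p = ψ q := by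
  have : DiscreteMeasurableSpace (FinPt F S) := ⟨fun _ => trivial⟩
  have : Nonempty (FinPt F S) := ⟨FinPt.base⟩
  exact exists_torus_weight_gen (fun (ω : FinPt F S) v => nloc v (eInf : Fin 2 → F) (ω.1 v))
    (fun _ v => (nfin_pos v eInf_ne_zero _).ne') torKey_smul

/-- The flow scaling all infinite places. -/
noncomputable def scaleFlow (s : ℝ) (p : Pt F S) : Pt F S :=
  (p.1, fun w => scaleC (s / (2 * Fintype.card (InfinitePlace F))) • p.2 w)

omit [IsTotallyComplex F] in
/-- The scaling flow commutes with automorphisms. -/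
lemma scaleFlow_amap {τ : F ≃+* F} (hS : Stable τ S) (s : ℝ) (p : Pt F S) :
    Pt.amap hS (scaleFlow s p) = scaleFlow s (Pt.amap hS p) :=
  Prod.ext rfl (funext fun _ => extH_scale _ _ _)

omit [IsTotallyComplex F] in
/-- The scaling flow commutes with diagonal matrices. -/
lemma scaleFlow_upMat (s : ℝ) (a : Fˣ) (p : Pt F S) :
    scaleFlow s (upMat a (0 : F) • p) = upMat a (0 : F) • scaleFlow s p := by
  refine Prod.ext rfl (funext fun w => ?_)
  change scaleC _ • (upMat a (0 : F) • p).2 w = (upMat a (0 : F) • scaleFlow s p).2 w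
  rw [Pt.smul_snd, Pt.smul_snd, ← mul_smul, scaleC_comm_atInf, mul_smul]
  rfl

/-- The scaling flow divides the height of `∞` by `eˢ`. -/
lemma ht_eInf_scaleFlow (s : ℝ) (p : Pt F S) :
    ht (eInf : Fin 2 → F) (scaleFlow s p) = ht (eInf : Fin 2 → F) p * Real.exp (-s) := by
  rw [ht_eInf, ht_eInf]
  change phiInf p.1 / ∏ w, (H3.coord (scaleC _ • p.2 w)).2 ^ 2 = _
  rw [prod_coord_scale, Real.exp_neg]
  field_simp

/-- The scaling flow multiplies the height of the other axis by `eˢ`. -/
lemma ht_zero_scaleFlow (s : ℝ) (p : Pt F S) :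
    ht ![1, 0] (scaleFlow s p) = ht ![1, 0] p * Real.exp s := by
  rw [ht, ht, mul_assoc]
  exact congrArg (_ * ·) (prod_ninf_scale s p.2)

/-- Minus the logarithm of the height of `∞`. -/
noncomputable def hPhi (p : Pt F S) : ℝ := -Real.log (ht (eInf : Fin 2 → F) p)

/-- The torus preserves the height of `∞`. -/
lemma hPhi_dTor {τ : F ≃+* F} (t : dTor τ) (p : Pt F S) : hPhi (t • p) = hPhi p := by
  obtain ⟨a, -, ha⟩ := mem_dTor.1 t.2
  rw [hPhi, hPhi, Subgroup.smul_def, ← ha, PG.mk_smul, ht_eInf_upMat_smul]

/-- **The flow is a height flow.** The scaling flow preserves the measure, commutes with the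
diagonal torus and translates `hPhi` by the time (`IsHeightFlow`). -/
theorem isHeightFlow_scale (τ : F ≃+* F) :
    IsHeightFlow (dTor τ) (ptMeasure (F := F) (S := S)) scaleFlow hPhi where
  mp s := (MeasurePreserving.id (Measure.count : Measure (FinPt F S))).prod
    (measurePreserving_pi (fun _ : InfinitePlace F => hmeas) (fun _ => hmeas)
      (f := fun _ => (scaleC (s / (2 * Fintype.card (InfinitePlace F))) • ·)) fun _ =>
        measurePreserving_smul_H3 _)
  comm t s p := by
    obtain ⟨a, -, ha⟩ := mem_dTor.1 t.2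
    rw [Subgroup.smul_def, Subgroup.smul_def, ← ha, PG.mk_smul, PG.mk_smul, scaleFlow_upMat]
  left_inv s p := Prod.ext rfl (funext fun w => by
    change scaleC (-s / _) • scaleC (s / _) • p.2 w = p.2 w
    rw [neg_div, scaleC_neg_smul])
  measφ := ((Real.measurable_log.comp (measurable_ht _))).neg
  invφ := hPhi_dTor
  shift s p := by
    rw [hPhi, hPhi, ht_eInf_scaleFlow,
      Real.log_mul (ht_pos eInf_ne_zero p).ne' (Real.exp_ne_zero _), Real.log_exp]
    ring

end Fermat.LTG
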